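import Fermat.Agent.FrobDensity.Qbar
import Mathlib.FieldTheory.Normal.Closure

/-!
Frobenius density theorem for the absolute Galois group of `ℚ`.
-/

set_option autoImplicit false
set_option linter.style.haveILetI false
set_option linter.unusedSectionVars false

open NumberField Ideal MulAction

namespace Fermat.Agent.FrobDensity

open Fermat.Agent.Frob

theorem numberField_of_algebra (M : Type*) [Field M] [CharZero M] (inst : Algebra ℚ M)
    (h : @Module.Finite ℚ M _ _ inst.toModule) : NumberField M := by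
  have h1 : inst = DivisionRing.toRatAlgebra := Subsingleton.elim _ _
  subst h1
  exact { to_charZero := inferInstance, to_finiteDimensional := h }

theorem isGalois_of_algebra (M : Type*) [Field M] [CharZero M] (inst : Algebra ℚ M)
    (h : @Normal ℚ M _ _ inst) : @IsGalois ℚ _ M _ DivisionRing.toRatAlgebra := by
  have h1 : inst = DivisionRing.toRatAlgebra := Subsingleton.elim _ _
  subst h1
  haveI := h
  exact { }

theorem exists_normal_finite {F Ω : Type*} [Field F] [Field Ω] [Algebra F Ω] [Normal F Ω]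
    (L : IntermediateField F Ω) [FiniteDimensional F L] :
    ∃ M : IntermediateField F Ω, L ≤ M ∧ Module.Finite F M ∧ Normal F M := by
  refine ⟨IntermediateField.normalClosure F L Ω, L.le_normalClosure, ?_, ?_⟩
  · exact inferInstanceAs (FiniteDimensional F (IntermediateField.normalClosure F L Ω))
  · infer_instance

/-- Auxiliary form with an abstract ambient field. -/
theorem exists_frobenius_pow_eq_aux {Ω : Type*} [Field Ω] [Algebra ℚ Ω] [IsGalois ℚ Ω]
    (L : IntermediateField ℚ Ω)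
    (hL : FiniteDimensional ℚ L) (σ : Ω ≃ₐ[ℚ] Ω) (S : Finset ℕ) :
    ∃ ℓ : ℕ, ℓ.Prime ∧ ℓ ∉ S ∧ ∃ A : ValuationSubring Ω, A.LiesOverPrime ℓ ∧
      (∀ i ∈ A.inertiaSubgroupIn ℚ, ∀ x ∈ L, i x = x) ∧
      ∃ τ : Ω ≃ₐ[ℚ] Ω, A.IsFrobeniusAt τ ℓ ∧
        (∃ j : ℕ, ∀ x ∈ L, (τ ^ j) x = σ x) ∧ ∃ k : ℕ, ∀ x ∈ L, (σ ^ k) x = τ x := by
  obtain ⟨M, hLM, hMfin, hMnorm⟩ := exists_normal_finite L
  haveI : CharZero M := charZero_of_injective_algebraMap (algebraMap ℚ M).injective
  haveI : NumberField M := numberField_of_algebra M M.algebra' hMfin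
  haveI : IsGalois ℚ M := isGalois_of_algebra M M.algebra' hMnorm
  haveI : IsScalarTower ℚ M Ω := .of_algebraMap_eq' (Subsingleton.elim _ _)
  obtain ⟨p, hp, hpS, A, hA, hI, τ, hτ, ⟨j, hj⟩, ⟨k, hk⟩⟩ :=
    exists_frobenius_restrictNormal (Ω := Ω) M (σ.restrictNormal M) S
  have key : ∀ (ρ : Ω ≃ₐ[ℚ] Ω) (x : Ω) (hx : x ∈ L),
      ((ρ.restrictNormal M ⟨x, hLM hx⟩ : M) : Ω) = ρ x := fun ρ x hx =>
    ρ.restrictNormal_commutes M ⟨x, hLM hx⟩
  have hpow : ∀ (ρ : Ω ≃ₐ[ℚ] Ω) (n : ℕ), (ρ ^ n).restrictNormal M = (ρ.restrictNormal M) ^ n :=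
    fun ρ n => map_pow (AlgEquiv.restrictNormalHom (F := ℚ) (K₁ := Ω) M) ρ n
  refine ⟨p, hp, hpS, A, hA, fun i hi x hx => ?_, τ, hτ, ⟨j, fun x hx => ?_⟩, k, fun x hx => ?_⟩
  · rw [← key i x hx, hI i hi]
    rfl
  · rw [← key (τ ^ j) x hx, ← key σ x hx, hpow, ← hj]
  · rw [← key (σ ^ k) x hx, ← key τ x hx, hpow, hk]

/-- **Frobenius density theorem** for the absolute Galois group of `ℚ`: up to a power (prime to the
order), every element of the absolute Galois group agrees on a given finite extension with a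
Frobenius element at a place over a prime outside a given finite set, at which moreover the
inertia group acts trivially on the given finite extension. -/
theorem exists_frobenius_pow_eq (L : IntermediateField ℚ (AlgebraicClosure ℚ))
    (hL : FiniteDimensional ℚ L) (σ : AlgebraicClosure ℚ ≃ₐ[ℚ] AlgebraicClosure ℚ)
    (S : Finset ℕ) :
    ∃ ℓ : ℕ, ℓ.Prime ∧ ℓ ∉ S ∧ ∃ A : ValuationSubring (AlgebraicClosure ℚ), A.LiesOverPrime ℓ ∧
      (∀ i ∈ A.inertiaSubgroupIn ℚ, ∀ x ∈ L, i x = x) ∧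
      ∃ τ : AlgebraicClosure ℚ ≃ₐ[ℚ] AlgebraicClosure ℚ, A.IsFrobeniusAt τ ℓ ∧
        (∃ j : ℕ, ∀ x ∈ L, (τ ^ j) x = σ x) ∧ ∃ k : ℕ, ∀ x ∈ L, (σ ^ k) x = τ x :=
  exists_frobenius_pow_eq_aux L hL σ S

end Fermat.Agent.FrobDensity
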