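import Mathlib

set_option autoImplicit false

open NumberField Ideal Filter Topology

namespace Fermat.Agent.FrobDensity

noncomputable section

variable (K : Type*) [Field K] [NumberField K]

/-- number of ideals of norm `n` -/
def idealCount (n : ℕ) : ℕ := Nat.card {I : Ideal (𝓞 K) // Ideal.absNorm I = n}

lemma idealCount_one : idealCount K 1 = 1 := by
  unfold idealCount
  rw [Nat.card_eq_one_iff_unique]
  refine ⟨⟨fun I J => Subtype.ext ?_⟩, ⟨⟨⊤, by simp⟩⟩⟩
  rw [Ideal.absNorm_eq_one_iff.mp I.2, Ideal.absNorm_eq_one_iff.mp J.2]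

variable {K} in
lemma span_sup_span_eq_top {m n : ℕ} (h : m.Coprime n) :
    (Ideal.span {(m : 𝓞 K)} ⊔ Ideal.span {(n : 𝓞 K)}) = ⊤ := by
  rw [Ideal.eq_top_iff_one]
  have h2 : IsCoprime (m : ℤ) (n : ℤ) := Nat.isCoprime_iff_coprime.mpr h
  obtain ⟨a, b, hab⟩ := h2
  have h3 : (a : 𝓞 K) * (m : 𝓞 K) + (b : 𝓞 K) * (n : 𝓞 K) = 1 := by
    exact_mod_cast congrArg (Int.cast : ℤ → 𝓞 K) hab
  rw [← h3]
  exact Ideal.add_mem _
    (Ideal.mem_sup_left (Ideal.mul_mem_left _ _ (Ideal.subset_span rfl)))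
    (Ideal.mem_sup_right (Ideal.mul_mem_left _ _ (Ideal.subset_span rfl)))

variable {K} in
lemma sup_mul_sup {m n : ℕ} (h : m.Coprime n) {A : Ideal (𝓞 K)} (hA : Ideal.absNorm A = m * n) :
    (A ⊔ Ideal.span {(m : 𝓞 K)}) * (A ⊔ Ideal.span {(n : 𝓞 K)}) = A := by
  apply le_antisymm
  · rw [Ideal.sup_mul, Ideal.mul_sup, Ideal.mul_sup]
    refine sup_le (sup_le Ideal.mul_le_right Ideal.mul_le_left) (sup_le Ideal.mul_le_right ?_)
    rw [Ideal.span_singleton_mul_span_singleton, Ideal.span_singleton_le_iff_mem]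
    have := Ideal.absNorm_mem A
    rw [hA] at this
    exact_mod_cast this
  · calc A = A * (Ideal.span {(m : 𝓞 K)} ⊔ Ideal.span {(n : 𝓞 K)}) := by
          rw [span_sup_span_eq_top h, Ideal.mul_top]
      _ ≤ _ := by
          rw [Ideal.mul_sup, Ideal.sup_mul, Ideal.mul_sup, Ideal.mul_sup]
          refine sup_le ?_ ?_
          · rw [mul_comm A]
            exact le_sup_of_le_right le_sup_left
          · exact le_sup_of_le_left le_sup_right

variable {K} in
lemma absNorm_span_natCast (m : ℕ) :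
    Ideal.absNorm (Ideal.span {(m : 𝓞 K)}) = m ^ Module.finrank ℚ K := by
  rw [Ideal.absNorm_span_natCast, RingOfIntegers.rank]

variable {K} in
lemma absNorm_sup {m n : ℕ} (hm : m ≠ 0) (hn : n ≠ 0) (h : m.Coprime n) {A : Ideal (𝓞 K)}
    (hA : Ideal.absNorm A = m * n) :
    Ideal.absNorm (A ⊔ Ideal.span {(m : 𝓞 K)}) = m ∧
    Ideal.absNorm (A ⊔ Ideal.span {(n : 𝓞 K)}) = n := by
  have hxy : Ideal.absNorm (A ⊔ Ideal.span {(m : 𝓞 K)}) *
      Ideal.absNorm (A ⊔ Ideal.span {(n : 𝓞 K)}) = m * n := by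
    rw [← map_mul, sup_mul_sup h hA, hA]
  set x := Ideal.absNorm (A ⊔ Ideal.span {(m : 𝓞 K)})
  set y := Ideal.absNorm (A ⊔ Ideal.span {(n : 𝓞 K)})
  have hx : x ∣ m ^ Module.finrank ℚ K := by
    rw [← absNorm_span_natCast]
    exact Ideal.absNorm_dvd_absNorm_of_le le_sup_right
  have hy : y ∣ n ^ Module.finrank ℚ K := by
    rw [← absNorm_span_natCast]
    exact Ideal.absNorm_dvd_absNorm_of_le le_sup_right
  have hxn : x.Coprime n := Nat.Coprime.coprime_dvd_left hx (Nat.Coprime.pow_left _ h)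
  have hym : y.Coprime m := Nat.Coprime.coprime_dvd_left hy (Nat.Coprime.pow_left _ h.symm)
  have hxm : x ∣ m := hxn.dvd_of_dvd_mul_right (hxy ▸ Dvd.intro _ rfl)
  have hyn : y ∣ n := hym.dvd_of_dvd_mul_left (hxy ▸ Dvd.intro_left _ rfl)
  obtain ⟨c, hc⟩ := hxm
  obtain ⟨d, hd⟩ := hyn
  have hx0 : x ≠ 0 := by rintro h0; rw [h0, zero_mul] at hc; exact hm hc
  have hy0 : y ≠ 0 := by rintro h0; rw [h0, zero_mul] at hd; exact hn hd
  have hcd : c * d = 1 := by
    have : x * y * (c * d) = x * y * 1 := by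
      rw [mul_one]
      conv_rhs => rw [hxy]
      rw [hc, hd]
      ring
    exact mul_left_cancel₀ (mul_ne_zero hx0 hy0) this
  have hc1 : c = 1 := Nat.eq_one_of_mul_eq_one_right hcd
  have hd1 : d = 1 := Nat.eq_one_of_mul_eq_one_left hcd
  rw [hc1, mul_one] at hc
  rw [hd1, mul_one] at hd
  exact ⟨hc.symm, hd.symm⟩

lemma idealCount_mul {m n : ℕ} (hm : m ≠ 0) (hn : n ≠ 0) (h : m.Coprime n) :
    idealCount K (m * n) = idealCount K m * idealCount K n := by
  unfold idealCount
  rw [← Nat.card_prod]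
  refine Nat.card_congr
    { toFun := fun A => (⟨A.1 ⊔ Ideal.span {(m : 𝓞 K)}, (absNorm_sup hm hn h A.2).1⟩,
        ⟨A.1 ⊔ Ideal.span {(n : 𝓞 K)}, (absNorm_sup hm hn h A.2).2⟩)
      invFun := fun IJ => ⟨IJ.1.1 * IJ.2.1, by rw [map_mul, IJ.1.2, IJ.2.2]⟩
      left_inv := fun A => Subtype.ext (sup_mul_sup h A.2)
      right_inv := ?_ }
  rintro ⟨⟨I, hI⟩, ⟨J, hJ⟩⟩
  have hmI : Ideal.span {(m : 𝓞 K)} ≤ I := by
    rw [Ideal.span_singleton_le_iff_mem, ← hI]; exact Ideal.absNorm_mem I
  have hnJ : Ideal.span {(n : 𝓞 K)} ≤ J := by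
    rw [Ideal.span_singleton_le_iff_mem, ← hJ]; exact Ideal.absNorm_mem J
  have h1 : J ⊔ Ideal.span {(m : 𝓞 K)} = ⊤ := by
    rw [eq_top_iff, ← span_sup_span_eq_top h]
    exact sup_le le_sup_right (hnJ.trans le_sup_left)
  have h2 : I ⊔ Ideal.span {(n : 𝓞 K)} = ⊤ := by
    rw [eq_top_iff, ← span_sup_span_eq_top h]
    exact sup_le (hmI.trans le_sup_left) le_sup_right
  refine Prod.ext (Subtype.ext ?_) (Subtype.ext ?_)
  · show I * J ⊔ Ideal.span {(m : 𝓞 K)} = I
    apply le_antisymm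
    · exact sup_le Ideal.mul_le_left hmI
    · calc I = I * (J ⊔ Ideal.span {(m : 𝓞 K)}) := by rw [h1, Ideal.mul_top]
        _ ≤ _ := by
          rw [Ideal.mul_sup]
          exact sup_le_sup_left Ideal.mul_le_right _
  · show I * J ⊔ Ideal.span {(n : 𝓞 K)} = J
    apply le_antisymm
    · exact sup_le Ideal.mul_le_right hnJ
    · calc J = J * (I ⊔ Ideal.span {(n : 𝓞 K)}) := by rw [h2, Ideal.mul_top]
        _ ≤ _ := by
          rw [Ideal.mul_sup, mul_comm J I]
          exact sup_le_sup_left Ideal.mul_le_right _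

/-! ### Bound for the number of ideals of prime power norm -/

open UniqueFactorizationMonoid in
lemma idealCount_prime_pow_le {p : ℕ} (hp : p.Prime) (e : ℕ) :
    idealCount K (p ^ e) ≤ (e + 1) ^ Module.finrank ℚ K := by
  classical
  -- the finite set of primes over p
  set q : Ideal (𝓞 K) := Ideal.span {(p : 𝓞 K)} with hq
  have hq0 : q ≠ ⊥ := by
    rw [hq, Ne, Ideal.span_singleton_eq_bot]
    exact_mod_cast hp.ne_zero
  set T : Finset (Ideal (𝓞 K)) := (normalizedFactors q).toFinset with hT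
  have hTcard : T.card ≤ Module.finrank ℚ K := by
    have h1 : p ^ T.card ≤ p ^ Module.finrank ℚ K := by
      rw [← absNorm_span_natCast (K := K) p]
      calc p ^ T.card = ∏ _P ∈ T, p := by simp
        _ ≤ ∏ P ∈ T, Ideal.absNorm P := by
          refine Finset.prod_le_prod' fun P hP => ?_
          rw [hT, Multiset.mem_toFinset] at hP
          have hPp : Prime P := prime_of_normalized_factor P hP
          have hdvd : P ∣ q := dvd_of_mem_normalizedFactors hP
          have h2 : Ideal.absNorm P ∣ p ^ Module.finrank ℚ K := by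
            rw [← absNorm_span_natCast (K := K) p]
            exact Ideal.absNorm_dvd_absNorm_of_le (Ideal.le_of_dvd hdvd)
          obtain ⟨k, -, hk⟩ := (Nat.dvd_prime_pow hp).mp h2
          rcases Nat.eq_zero_or_pos k with rfl | hk0
          · exfalso
            rw [pow_zero, Ideal.absNorm_eq_one_iff] at hk
            exact (Ideal.isPrime_of_prime hPp).ne_top hk
          · rw [hk]; exact Nat.le_self_pow hk0.ne' p
        _ ≤ Ideal.absNorm q := by
          rw [← map_prod]
          refine Nat.le_of_dvd ?_ ?_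
          · rw [Nat.pos_iff_ne_zero, Ne, Ideal.absNorm_eq_zero_iff]; exact hq0
          · apply Ideal.absNorm_dvd_absNorm_of_le
            apply Ideal.le_of_dvd
            have h3 := prod_normalizedFactors hq0
            refine dvd_trans ?_ h3.dvd
            rw [Finset.prod_eq_multiset_prod, Multiset.map_id']
            exact Multiset.prod_dvd_prod_of_le (Multiset.dedup_le _)
    exact (Nat.pow_le_pow_iff_right hp.one_lt).mp h1
  -- injection
  let F : {I : Ideal (𝓞 K) // Ideal.absNorm I = p ^ e} → (T → Fin (e + 1)) := fun I P =>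
    ⟨min (Multiset.count P.1 (normalizedFactors I.1)) e, by omega⟩
  have key : ∀ I : Ideal (𝓞 K), Ideal.absNorm I = p ^ e →
      I ≠ ⊥ ∧ (normalizedFactors I).card ≤ e ∧ ∀ P ∈ normalizedFactors I, P ∈ T := by
    intro I hI
    have hI0 : I ≠ ⊥ := by
      rintro rfl
      rw [Ideal.absNorm_bot] at hI
      exact (pow_ne_zero e hp.ne_zero) hI.symm
    have hmem : ∀ P ∈ normalizedFactors I, P ∈ T ∧ p ≤ Ideal.absNorm P := by
      intro P hP
      have hPp : Prime P := prime_of_normalized_factor P hP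
      have hPprime := Ideal.isPrime_of_prime hPp
      have hdvd : P ∣ I := dvd_of_mem_normalizedFactors hP
      have h2 : Ideal.absNorm P ∣ p ^ e := by
        rw [← hI]
        exact Ideal.absNorm_dvd_absNorm_of_le (Ideal.le_of_dvd hdvd)
      obtain ⟨k, -, hk⟩ := (Nat.dvd_prime_pow hp).mp h2
      rcases Nat.eq_zero_or_pos k with rfl | hk0
      · exfalso
        rw [pow_zero, Ideal.absNorm_eq_one_iff] at hk
        exact hPprime.ne_top hk
      · refine ⟨?_, hk ▸ Nat.le_self_pow hk0.ne' p⟩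
        rw [hT, Multiset.mem_toFinset, mem_normalizedFactors_iff' hq0]
        refine ⟨hPp.irreducible, normalize_eq P, ?_⟩
        rw [Ideal.dvd_iff_le, hq, Ideal.span_singleton_le_iff_mem]
        have h4 : ((Ideal.absNorm P : ℕ) : 𝓞 K) ∈ P := Ideal.absNorm_mem P
        rw [hk, Nat.cast_pow] at h4
        exact hPprime.mem_of_pow_mem _ h4
    refine ⟨hI0, ?_, fun P hP => (hmem P hP).1⟩
    have h5 : Ideal.absNorm I = ((normalizedFactors I).map Ideal.absNorm).prod := by
      conv_lhs => rw [← Ideal.prod_normalizedFactors_eq_self hI0]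
      rw [map_multiset_prod]
    have h6 : p ^ (normalizedFactors I).card ≤ ((normalizedFactors I).map Ideal.absNorm).prod := by
      have := Multiset.pow_card_le_prod (s := (normalizedFactors I).map Ideal.absNorm) (a := p) ?_
      · rwa [Multiset.card_map] at this
      · intro x hx
        obtain ⟨P, hP, rfl⟩ := Multiset.mem_map.mp hx
        exact (hmem P hP).2
    rw [← h5, hI] at h6
    exact (Nat.pow_le_pow_iff_right hp.one_lt).mp h6
  have hF : Function.Injective F := by
    intro I J hIJ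
    obtain ⟨hI0, hIc, hIT⟩ := key I.1 I.2
    obtain ⟨hJ0, hJc, hJT⟩ := key J.1 J.2
    have hcount : normalizedFactors I.1 = normalizedFactors J.1 := by
      ext P
      by_cases hP : P ∈ T
      · have h7 := congrArg Fin.val (congrFun hIJ ⟨P, hP⟩)
        simp only [F] at h7
        have h8 := Multiset.count_le_card P (normalizedFactors I.1)
        have h9 := Multiset.count_le_card P (normalizedFactors J.1)
        omega
      · rw [Multiset.count_eq_zero_of_notMem (fun h => hP (hIT P h)),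
          Multiset.count_eq_zero_of_notMem (fun h => hP (hJT P h))]
    apply Subtype.ext
    rw [← Ideal.prod_normalizedFactors_eq_self hI0, ← Ideal.prod_normalizedFactors_eq_self hJ0, hcount]
  calc idealCount K (p ^ e) ≤ Nat.card (T → Fin (e + 1)) := Nat.card_le_card_of_injective F hF
    _ = (e + 1) ^ T.card := by simp [Nat.card_eq_fintype_card]
    _ ≤ _ := Nat.pow_le_pow_right (by omega) hTcard

/-! ### The Dirichlet series of the ideal counting function, real version -/

/-- general term of the real Dirichlet series -/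
def dterm (s : ℝ) (n : ℕ) : ℝ := (idealCount K n : ℝ) * (n : ℝ) ^ (-s)

/-- real Dedekind zeta function -/
def realZeta (s : ℝ) : ℝ := ∑' n : ℕ, dterm K s n

lemma dterm_nonneg (s : ℝ) (n : ℕ) : 0 ≤ dterm K s n := by
  unfold dterm; positivity

lemma dterm_zero {s : ℝ} (hs : 0 < s) : dterm K s 0 = 0 := by
  unfold dterm
  rw [Nat.cast_zero, Real.zero_rpow (by linarith), mul_zero]

lemma dterm_one (s : ℝ) : dterm K s 1 = 1 := by
  unfold dterm
  rw [idealCount_one]; simp

lemma dterm_mul {s : ℝ} (hs : 0 < s) {m n : ℕ} (h : m.Coprime n) :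
    dterm K s (m * n) = dterm K s m * dterm K s n := by
  rcases eq_or_ne m 0 with rfl | hm
  · rw [zero_mul, dterm_zero K hs, zero_mul]
  rcases eq_or_ne n 0 with rfl | hn
  · rw [mul_zero, dterm_zero K hs, mul_zero]
  unfold dterm
  rw [idealCount_mul K hm hn h, Nat.cast_mul, Nat.cast_mul,
    Real.mul_rpow (Nat.cast_nonneg m) (Nat.cast_nonneg n)]
  ring

lemma tendsto_sum_div : Tendsto (fun n : ℕ ↦ (∑ k ∈ Finset.Icc 1 n, (idealCount K k : ℝ)) / n) atTop
    (𝓝 (dedekindZeta_residue K)) := by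
  refine ((Ideal.tendsto_norm_le_div_atTop₀ K).comp tendsto_natCast_atTop_atTop).congr fun n ↦ ?_
  simp only [Function.comp_apply, Nat.cast_le, ← Nat.cast_sum, idealCount]
  congr
  rw [← add_left_inj 1, ← card_norm_le_eq_card_norm_le_add_one,
    show Finset.Icc 1 n = Finset.Ioc 0 n from Finset.Icc_succ_left_eq_Ioc _ _,
    show 1 = Nat.card {I : Ideal (𝓞 K) // absNorm I = 0} by simp [Ideal.absNorm_eq_zero_iff],
    Finset.sum_Ioc_add_eq_sum_Icc (n.zero_le),
    ← Finset.card_preimage_eq_sum_card_image_eq (fun k _ ↦ finite_setOfPred_absNorm_eq k)]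
  simp [Set.coe_eq_subtype]

lemma isBigO_sum : (fun n : ℕ ↦ (∑ k ∈ Finset.Icc 1 n, (idealCount K k : ℝ))) =O[atTop]
    fun n : ℕ ↦ (n : ℝ) ^ (1 : ℝ) := by
  have h := (tendsto_sum_div K).isBigO_one ℝ
  have h2 := h.mul (Asymptotics.isBigO_refl (fun n : ℕ ↦ (n : ℝ)) atTop)
  refine h2.congr' ?_ ?_
  · filter_upwards [eventually_ne_atTop 0] with n hn
    field_simp
  · filter_upwards with n
    rw [one_mul, Real.rpow_one]

lemma term_eq {s : ℝ} (hs : 1 < s) (n : ℕ) :
    LSeries.term (fun n ↦ ((idealCount K n : ℝ) : ℂ)) (s : ℂ) n = ((dterm K s n : ℝ) : ℂ) := by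
  rcases eq_or_ne n 0 with rfl | hn
  · rw [LSeries.term_zero, dterm_zero K (by linarith), Complex.ofReal_zero]
  · rw [LSeries.term_of_ne_zero hn, dterm, Complex.ofReal_mul, Complex.ofReal_cpow (Nat.cast_nonneg n),
      Complex.ofReal_neg, Complex.cpow_neg, div_eq_mul_inv]
    simp

lemma summable_dterm {s : ℝ} (hs : 1 < s) : Summable (dterm K s) := by
  have h : LSeriesSummable (fun n ↦ ((idealCount K n : ℝ) : ℂ)) (s : ℂ) :=
    LSeriesSummable_of_sum_norm_bigO_and_nonneg (r := 1) (isBigO_sum K)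
      (fun n => Nat.cast_nonneg _) zero_le_one (by simpa using hs)
  rw [LSeriesSummable] at h
  have h2 : Summable (fun n => ((dterm K s n : ℝ) : ℂ)) := h.congr fun n => term_eq K hs n
  exact_mod_cast h2

lemma dedekindZeta_eq {s : ℝ} (hs : 1 < s) : dedekindZeta K (s : ℂ) = ((realZeta K s : ℝ) : ℂ) := by
  rw [realZeta, Complex.ofReal_tsum, dedekindZeta, LSeries]
  refine tsum_congr fun n => ?_
  rw [← term_eq K hs n]
  rfl

lemma tendsto_realZeta : Tendsto (fun s : ℝ ↦ (s - 1) * realZeta K s) (𝓝[>] 1)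
    (𝓝 (dedekindZeta_residue K)) := by
  have h := tendsto_sub_one_mul_dedekindZeta_nhdsGT K
  have h2 : Tendsto (fun s : ℝ ↦ (((s - 1) * realZeta K s : ℝ) : ℂ)) (𝓝[>] 1)
      (𝓝 ((dedekindZeta_residue K : ℝ) : ℂ)) := by
    refine h.congr' ?_
    filter_upwards [self_mem_nhdsWithin] with s hs
    rw [dedekindZeta_eq K hs]
    push_cast
    ring
  have h3 := (Complex.continuous_re.tendsto _).comp h2
  simpa [Function.comp_def] using h3

/-- the local factor -/
def localFactor (s : ℝ) (p : ℕ) : ℝ := ∑' e : ℕ, dterm K s (p ^ e)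

lemma hasProd_localFactor {s : ℝ} (hs : 1 < s) :
    HasProd (fun p : Nat.Primes ↦ localFactor K s p) (realZeta K s) := by
  refine EulerProduct.eulerProduct_hasProd (f := dterm K s) (dterm_one K s)
    (fun h => dterm_mul K (by linarith) h) ?_ (dterm_zero K (by linarith))
  exact (summable_dterm K hs).norm

/-- constant for the tail bound -/
def tailConst : ℝ := ∑' e : ℕ, ((e : ℝ) + 3) ^ Module.finrank ℚ K * (1 / 2 : ℝ) ^ e

lemma summable_tailConst :
    Summable (fun e : ℕ ↦ ((e : ℝ) + 3) ^ Module.finrank ℚ K * (1 / 2 : ℝ) ^ e) := by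
  have h := summable_pow_mul_geometric_of_norm_lt_one (Module.finrank ℚ K) (r := (1 / 2 : ℝ))
    (by norm_num)
  have h2 := (summable_nat_add_iff 3).mpr h
  refine (h2.mul_left (8 : ℝ)).congr fun e => ?_
  rw [pow_add]
  push_cast
  ring

lemma dterm_prime_pow_le {s : ℝ} (hs : 1 ≤ s) {p : ℕ} (hp : p.Prime) (e : ℕ) :
    dterm K s (p ^ e) ≤ ((e : ℝ) + 1) ^ Module.finrank ℚ K * ((p : ℝ)⁻¹) ^ e := by
  unfold dterm
  have hp0 : (0 : ℝ) < p := by exact_mod_cast hp.pos
  have hp1 : (1 : ℝ) ≤ p := by exact_mod_cast hp.one_le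
  refine mul_le_mul ?_ ?_ (by positivity) (by positivity)
  · exact_mod_cast idealCount_prime_pow_le K hp e
  · rw [Nat.cast_pow, inv_pow, ← Real.rpow_neg_one ((p : ℝ) ^ e)]
    apply Real.rpow_le_rpow_of_exponent_le
    · exact one_le_pow₀ hp1
    · linarith

lemma summable_local {s : ℝ} (hs : 1 < s) {p : ℕ} (hp : p.Prime) :
    Summable (fun e : ℕ ↦ dterm K s (p ^ e)) :=
  (summable_dterm K hs).comp_injective (Nat.pow_right_injective hp.two_le)

lemma localFactor_eq {s : ℝ} (hs : 1 < s) {p : ℕ} (hp : p.Prime) :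
    localFactor K s p = 1 + dterm K s p + ∑' e : ℕ, dterm K s (p ^ (e + 2)) := by
  unfold localFactor
  rw [← (summable_local K hs hp).sum_add_tsum_nat_add 2]
  simp [Finset.sum_range_succ, dterm_one]

lemma tail_nonneg (s : ℝ) (p : ℕ) : 0 ≤ ∑' e : ℕ, dterm K s (p ^ (e + 2)) :=
  tsum_nonneg fun e => dterm_nonneg K s _

lemma tail_le {s : ℝ} (hs : 1 < s) {p : ℕ} (hp : p.Prime) :
    ∑' e : ℕ, dterm K s (p ^ (e + 2)) ≤ tailConst K * ((p : ℝ)⁻¹) ^ 2 := by
  unfold tailConst
  rw [← tsum_mul_right]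
  refine Summable.tsum_le_tsum (fun e => ?_) ?_ ((summable_tailConst K).mul_right _)
  · have h := dterm_prime_pow_le K hs.le hp (e + 2)
    refine h.trans ?_
    have hp0 : (0 : ℝ) < p := by exact_mod_cast hp.pos
    have hp2 : (p : ℝ)⁻¹ ≤ 1 / 2 := by
      rw [one_div]
      exact inv_anti₀ (by norm_num) (by exact_mod_cast hp.two_le)
    rw [pow_add ((p : ℝ)⁻¹), ← mul_assoc]
    refine mul_le_mul_of_nonneg_right ?_ (by positivity)
    have h3 : (((e + 2 : ℕ) : ℝ) + 1) = (e : ℝ) + 3 := by push_cast; ring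
    rw [h3]
    refine mul_le_mul_of_nonneg_left ?_ (by positivity)
    exact pow_le_pow_left₀ (by positivity) hp2 e
  · exact (summable_nat_add_iff 2).mpr (summable_local K hs hp)

lemma tailConst_nonneg : 0 ≤ tailConst K := tsum_nonneg fun e => by positivity

lemma dterm_prime_le {s : ℝ} (hs : 1 < s) {p : ℕ} (hp : p.Prime) :
    dterm K s p ≤ 2 ^ Module.finrank ℚ K * (p : ℝ)⁻¹ := by
  have h := dterm_prime_pow_le K hs.le hp 1
  simp only [pow_one, Nat.cast_one] at h
  norm_num at h
  exact h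

/-- constant for the comparison of logarithms -/
def logConst : ℝ := tailConst K + (2 ^ Module.finrank ℚ K + tailConst K) ^ 2

lemma abs_log_localFactor_sub_le {s : ℝ} (hs : 1 < s) {p : ℕ} (hp : p.Prime) :
    |Real.log (localFactor K s p) - dterm K s p| ≤ logConst K * ((p : ℝ) ^ 2)⁻¹ := by
  set R := ∑' e : ℕ, dterm K s (p ^ (e + 2)) with hR
  have hR0 : 0 ≤ R := tail_nonneg K s p
  have hR1 : R ≤ tailConst K * ((p : ℝ)⁻¹) ^ 2 := tail_le K hs hp
  have hd0 : 0 ≤ dterm K s p := dterm_nonneg K s p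
  have hd1 := dterm_prime_le K hs hp
  have hp0 : (0 : ℝ) < p := by exact_mod_cast hp.pos
  have hp1 : (1 : ℝ) ≤ p := by exact_mod_cast hp.one_le
  have hpinv : (p : ℝ)⁻¹ ≤ 1 := inv_le_one_of_one_le₀ hp1
  have hpinv0 : 0 ≤ (p : ℝ)⁻¹ := by positivity
  have hT := tailConst_nonneg K
  rw [localFactor_eq K hs hp, ← hR]
  set x := dterm K s p + R with hx
  have hx0 : 0 ≤ x := add_nonneg hd0 hR0
  have hxle : x ≤ (2 ^ Module.finrank ℚ K + tailConst K) * (p : ℝ)⁻¹ := by
    have : tailConst K * ((p : ℝ)⁻¹) ^ 2 ≤ tailConst K * (p : ℝ)⁻¹ := by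
      refine mul_le_mul_of_nonneg_left ?_ hT
      rw [sq]
      exact mul_le_of_le_one_left hpinv0 hpinv
    rw [hx, add_mul]
    linarith
  have hx2 : x ^ 2 ≤ (2 ^ Module.finrank ℚ K + tailConst K) ^ 2 * ((p : ℝ) ^ 2)⁻¹ := by
    have := pow_le_pow_left₀ hx0 hxle 2
    rwa [mul_pow, inv_pow] at this
  have heq : 1 + dterm K s p + R = 1 + x := by rw [hx]; ring
  rw [heq]
  have hup : Real.log (1 + x) ≤ x := by
    have := Real.log_le_sub_one_of_pos (x := 1 + x) (by linarith)
    linarith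
  have hlo : x - x ^ 2 ≤ Real.log (1 + x) := by
    have h1 := Real.one_sub_inv_le_log_of_pos (x := 1 + x) (by linarith)
    refine le_trans ?_ h1
    have h2 : (1 + x)⁻¹ ≤ 1 - x + x ^ 2 := by
      rw [inv_le_iff_one_le_mul₀ (by linarith)]
      nlinarith [pow_nonneg hx0 3]
    linarith
  rw [inv_pow] at hR1
  rw [abs_le, logConst, add_mul]
  constructor
  · have : 0 ≤ tailConst K * ((p : ℝ) ^ 2)⁻¹ := by positivity
    rw [hx] at hlo hx2
    linarith
  · have : 0 ≤ (2 ^ Module.finrank ℚ K + tailConst K) ^ 2 * ((p : ℝ) ^ 2)⁻¹ := by positivity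
    rw [hx] at hup
    linarith

lemma summable_primes_inv_sq : Summable (fun p : Nat.Primes ↦ (((p : ℕ) : ℝ) ^ 2)⁻¹) := by
  have h : Summable (fun n : ℕ ↦ ((n : ℝ) ^ 2)⁻¹) := Real.summable_nat_pow_inv.mpr (by norm_num)
  exact h.comp_injective Subtype.val_injective

lemma summable_primes_dterm {s : ℝ} (hs : 1 < s) : Summable (fun p : Nat.Primes ↦ dterm K s p) :=
  (summable_dterm K hs).comp_injective Subtype.val_injective

lemma summable_log_sub {s : ℝ} (hs : 1 < s) :
    Summable (fun p : Nat.Primes ↦ Real.log (localFactor K s p) - dterm K s p) := by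
  refine Summable.of_norm_bounded (g := fun p : Nat.Primes ↦ logConst K * (((p : ℕ) : ℝ) ^ 2)⁻¹)
    (summable_primes_inv_sq.mul_left _) fun p => ?_
  exact abs_log_localFactor_sub_le K hs p.2

lemma localFactor_pos {s : ℝ} (hs : 1 < s) {p : ℕ} (hp : p.Prime) : 0 < localFactor K s p := by
  rw [localFactor_eq K hs hp]
  have := dterm_nonneg K s p
  have := tail_nonneg K s p
  linarith

lemma log_realZeta {s : ℝ} (hs : 1 < s) :
    Real.log (realZeta K s) = ∑' p : Nat.Primes, Real.log (localFactor K s p) := by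
  have hsum : Summable (fun p : Nat.Primes ↦ Real.log (localFactor K s p)) := by
    refine ((summable_log_sub K hs).add (summable_primes_dterm K hs)).congr fun p => ?_
    ring
  have h := Real.hasProd_of_hasSum_log (fun p : Nat.Primes => localFactor_pos K hs p.2) hsum.hasSum
  rw [(hasProd_localFactor K hs).unique h, Real.log_exp]

lemma abs_tsum_sub_log_realZeta_le {s : ℝ} (hs : 1 < s) :
    |∑' p : Nat.Primes, dterm K s p - Real.log (realZeta K s)| ≤
      logConst K * ∑' p : Nat.Primes, (((p : ℕ) : ℝ) ^ 2)⁻¹ := by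
  have hsum : Summable (fun p : Nat.Primes ↦ Real.log (localFactor K s p)) := by
    refine ((summable_log_sub K hs).add (summable_primes_dterm K hs)).congr fun p => ?_
    ring
  rw [log_realZeta K hs, abs_sub_comm, ← hsum.tsum_sub (summable_primes_dterm K hs),
    ← Real.norm_eq_abs]
  refine tsum_of_norm_bounded (E := ℝ) (g := fun p : Nat.Primes ↦ logConst K * (((p : ℕ) : ℝ) ^ 2)⁻¹)
    (summable_primes_inv_sq.hasSum.mul_left _) fun p => ?_
  exact abs_log_localFactor_sub_le K hs p.2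

lemma realZeta_antitone {s t : ℝ} (hs : 1 < s) (hst : s ≤ t) : realZeta K t ≤ realZeta K s := by
  unfold realZeta
  refine Summable.tsum_le_tsum (fun n => ?_) (summable_dterm K (hs.trans_le hst)) (summable_dterm K hs)
  rcases eq_or_ne n 0 with rfl | hn
  · rw [dterm_zero K (by linarith), dterm_zero K (by linarith)]
  unfold dterm
  refine mul_le_mul_of_nonneg_left ?_ (Nat.cast_nonneg _)
  apply Real.rpow_le_rpow_of_exponent_le
  · exact_mod_cast Nat.one_le_iff_ne_zero.mpr hn
  · linarith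

lemma one_le_realZeta {s : ℝ} (hs : 1 < s) : 1 ≤ realZeta K s := by
  have h := (summable_dterm K hs).le_tsum 1 (fun n _ => dterm_nonneg K s n)
  rwa [dterm_one] at h

lemma exists_bound_log_realZeta : ∃ C : ℝ, ∀ s : ℝ, 1 < s → s ≤ 2 →
    |Real.log (realZeta K s) - Real.log (1 / (s - 1))| ≤ C := by
  set r := dedekindZeta_residue K with hr
  have hr0 : 0 < r := dedekindZeta_residue_pos K
  have h1 : ∀ᶠ s : ℝ in 𝓝[>] 1, (s - 1) * realZeta K s ∈ Set.Icc (r / 2) (2 * r) :=
    (tendsto_realZeta K).eventually (Icc_mem_nhds (by linarith) (by linarith))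
  rw [eventually_nhdsWithin_iff, Metric.eventually_nhds_iff] at h1
  obtain ⟨ε, hε, h1⟩ := h1
  set δ := min (ε / 2) 1 with hδ
  have hδ0 : 0 < δ := lt_min (by linarith) one_pos
  have hδε : δ < ε := (min_le_left _ _).trans_lt (by linarith)
  refine ⟨max (|Real.log (r / 2)| + |Real.log (2 * r)|)
    (Real.log (realZeta K (1 + δ)) + Real.log (1 / δ)), fun s hs hs2 => ?_⟩
  have hs0 : 0 < s - 1 := by linarith
  have hz0 : 0 < realZeta K s := lt_of_lt_of_le one_pos (one_le_realZeta K hs)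
  by_cases hsδ : s ≤ 1 + δ
  · refine le_max_of_le_left ?_
    have hmem := @h1 s (by rw [Real.dist_eq, abs_of_pos hs0]; linarith) hs
    have heq : Real.log (realZeta K s) - Real.log (1 / (s - 1)) =
        Real.log ((s - 1) * realZeta K s) := by
      rw [one_div, Real.log_inv, Real.log_mul hs0.ne' hz0.ne']
      ring
    rw [heq, abs_le]
    have hpos : 0 < (s - 1) * realZeta K s := mul_pos hs0 hz0
    have hlow := Real.log_le_log (by linarith) hmem.1
    have hupp := Real.log_le_log hpos hmem.2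
    constructor
    · have := neg_abs_le (Real.log (r / 2))
      have := abs_nonneg (Real.log (2 * r))
      linarith
    · have := le_abs_self (Real.log (2 * r))
      have := abs_nonneg (Real.log (r / 2))
      linarith
  · refine le_max_of_le_right ?_
    rw [not_le] at hsδ
    have hA : Real.log (realZeta K s) ≤ Real.log (realZeta K (1 + δ)) :=
      Real.log_le_log hz0 (realZeta_antitone K (by linarith) hsδ.le)
    have hA0 : 0 ≤ Real.log (realZeta K s) := Real.log_nonneg (one_le_realZeta K hs)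
    have hB0 : 0 ≤ Real.log (1 / (s - 1)) := by
      apply Real.log_nonneg
      rw [le_div_iff₀ hs0]; linarith
    have hB : Real.log (1 / (s - 1)) ≤ Real.log (1 / δ) := by
      apply Real.log_le_log (by positivity)
      exact one_div_le_one_div_of_le hδ0 (by linarith)
    rw [abs_le]
    constructor <;> linarith

theorem exists_bound_log : ∃ C : ℝ, ∀ s : ℝ, 1 < s → s ≤ 2 →
    Summable (fun p : Nat.Primes =>
      (Nat.card {I : Ideal (𝓞 K) // Ideal.absNorm I = (p : ℕ)} : ℝ) * ((p : ℕ) : ℝ) ^ (-s)) ∧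
    |∑' p : Nat.Primes,
      (Nat.card {I : Ideal (𝓞 K) // Ideal.absNorm I = (p : ℕ)} : ℝ) * ((p : ℕ) : ℝ) ^ (-s) -
      Real.log (1 / (s - 1))| ≤ C := by
  obtain ⟨C, hC⟩ := exists_bound_log_realZeta K
  refine ⟨logConst K * ∑' p : Nat.Primes, (((p : ℕ) : ℝ) ^ 2)⁻¹ + C, fun s hs hs2 => ⟨?_, ?_⟩⟩
  · exact summable_primes_dterm K hs
  · have h1 := abs_tsum_sub_log_realZeta_le K hs
    have h2 := hC s hs hs2
    have h3 := abs_add_le (∑' p : Nat.Primes, dterm K s p - Real.log (realZeta K s))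
      (Real.log (realZeta K s) - Real.log (1 / (s - 1)))
    rw [sub_add_sub_cancel] at h3
    exact h3.trans (add_le_add h1 h2)

end

end Fermat.Agent.FrobDensity
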