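import Fermat.Agent.FrobDensity.Moebius

/-!
Frobenius density theorem (existence form), conditional on the analytic input.
-/

set_option autoImplicit false
set_option linter.style.haveILetI false
set_option linter.unusedSectionVars false

open NumberField Ideal MulAction ArithmeticFunction
open scoped Pointwise ArithmeticFunction.Moebius

namespace Fermat.Agent.FrobDensity

section

variable (L : Type*) [Field L] [NumberField L] [IsGalois ℚ L]

theorem inertia_eq_bot_of_not_dvd_discr {p : ℕ} (hp : p.Prime) (hd : ¬ (p : ℤ) ∣ discr L)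
    (Q : Ideal (𝓞 L)) (hQ : Q.IsPrime) (hpQ : (p : 𝓞 L) ∈ Q) :
    inertia (L ≃ₐ[ℚ] L) Q = ⊥ := by
  haveI : Fact p.Prime := ⟨hp⟩
  haveI : (span {(p : ℤ)}).IsPrime := (Int.ideal_span_isMaximal_of_prime p).isPrime
  haveI := liesOver_span_of_mem hp Q hpQ
  have h1 := (NumberField.not_dvd_discr_iff_forall_mem L (𝓞 L)
    (Nat.prime_iff_prime_int.mp hp)).mp hd Q hQ (by simpa using hpQ)
  have h2 := card_inertia_eq_ramificationIdxIn (G := L ≃ₐ[ℚ] L) (span {(p : ℤ)}) Q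
  rw [ramificationIdxIn_eq_ramificationIdx (span {(p : ℤ)}) Q (L ≃ₐ[ℚ] L)] at h2
  rw [Ideal.ramificationIdx_eq_one_of_isUnramifiedAt] at h2
  exact Subgroup.card_eq_one.mp h2

/-- The weighted prime sum. -/
noncomputable def primeSum (K : Type*) [Field K] [NumberField K] (s : ℝ) : ℝ :=
  ∑' p : Nat.Primes, (numDegOne K p : ℝ) * ((p : ℕ) : ℝ) ^ (-s)

/-- The analytic input. -/
def AnalyticInput (K : Type*) [Field K] [NumberField K] : Prop :=
  ∃ C : ℝ, ∀ s : ℝ, 1 < s → s ≤ 2 →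
    Summable (fun p : Nat.Primes => (numDegOne K p : ℝ) * ((p : ℕ) : ℝ) ^ (-s)) ∧
    |∑' p : Nat.Primes, (numDegOne K p : ℝ) * ((p : ℕ) : ℝ) ^ (-s) - Real.log (1 / (s - 1))| ≤ C

theorem sum_moebius_div (n : ℕ) (hn : n ≠ 0) :
    ∑ d ∈ n.divisors, μ d * ((n / d : ℕ) : ℤ) = n.totient := by
  have h1 : ∀ m : ℕ, 0 < m → ∑ i ∈ m.divisors, ((Nat.totient i : ℕ) : ℤ) = (m : ℤ) := by
    intro m _
    exact_mod_cast Nat.sum_totient m
  have h2 := (sum_eq_iff_sum_mul_moebius_eq (f := fun i => ((Nat.totient i : ℕ) : ℤ))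
    (g := fun m => (m : ℤ))).mp h1 n (Nat.pos_of_ne_zero hn)
  rw [← h2, ← Nat.sum_divisorsAntidiagonal (fun i j => μ i * ((j : ℕ) : ℤ))]
  simp

theorem exists_prime_stabilizer_eq_of
    (hA : ∀ H : Subgroup (L ≃ₐ[ℚ] L), AnalyticInput (fixedF H))
    (g : L ≃ₐ[ℚ] L) (S : Finset ℕ) :
    ∃ p : ℕ, p.Prime ∧ p ∉ S ∧ ∃ Q : Ideal (𝓞 L), Q.IsPrime ∧ (p : 𝓞 L) ∈ Q ∧
      inertia (L ≃ₐ[ℚ] L) Q = ⊥ ∧ stabilizer (L ≃ₐ[ℚ] L) Q = Subgroup.zpowers g := by
  classical
  by_contra hcon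
  push Not at hcon
  set n := orderOf g with hn
  have hn0 : n ≠ 0 := (orderOf_pos g).ne'
  -- the exceptional set
  set S' : Finset ℕ := S ∪ (discr L).natAbs.primeFactors with hS'
  choose C hC using fun d : ℕ => hA (Subgroup.zpowers (g ^ d))
  let w : ℕ → ℝ := fun d => ((μ d * ((n / d : ℕ) : ℤ) : ℤ) : ℝ)
  let F : ℕ → Nat.Primes → ℝ := fun d p => (numDegOne (fixedF (Subgroup.zpowers (g ^ d))) p : ℝ)
  -- vanishing outside the exceptional set
  have hvan : ∀ p : Nat.Primes, (p : ℕ) ∉ S' → ∑ d ∈ n.divisors, w d * F d p = 0 := by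
    intro p hp
    rw [hS', Finset.mem_union, not_or] at hp
    have hd : ¬ ((p : ℕ) : ℤ) ∣ discr L := by
      intro h
      refine hp.2 (Nat.mem_primeFactors.mpr ⟨p.2, ?_, ?_⟩)
      · exact Int.natCast_dvd.mp h
      · exact Int.natAbs_ne_zero.mpr (discr_ne_zero L)
    have hin := inertia_eq_bot_of_not_dvd_discr L p.2 hd
    haveI : Fact (p : ℕ).Prime := ⟨p.2⟩
    haveI : (span {((p : ℕ) : ℤ)}).IsPrime := (Int.ideal_span_isMaximal_of_prime p).isPrime
    obtain ⟨⟨Q₀, hQ₀, hQ₀l⟩⟩ := (nonempty_primesOver (S := 𝓞 L) (span {((p : ℕ) : ℤ)}))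
    have hpQ₀ : ((p : ℕ) : 𝓞 L) ∈ Q₀ := by
      have h1 : ((p : ℕ) : ℤ) ∈ Q₀.under ℤ := by
        rw [← hQ₀l.over]
        exact Ideal.mem_span_singleton_self _
      simpa using h1
    have h1 := sum_moebius_numDegOne p.2 g Q₀ hpQ₀ hin
    have h2 : Nat.card {x : L ≃ₐ[ℚ] L //
        stabilizer (L ≃ₐ[ℚ] L) (x • Q₀) = Subgroup.zpowers g} = 0 := by
      haveI : IsEmpty {x : L ≃ₐ[ℚ] L //
          stabilizer (L ≃ₐ[ℚ] L) (x • Q₀) = Subgroup.zpowers g} := by
        constructor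
        rintro ⟨x, hx⟩
        have hxm := (mem_smul_iff_of_natCast x Q₀ p).mpr hpQ₀
        exact hcon p p.2 hp.1 (x • Q₀) (hQ₀.smul x) hxm (hin _ (hQ₀.smul x) hxm) hx
      exact Nat.card_of_isEmpty
    rw [h2] at h1
    have h3 := congrArg (Int.cast : ℤ → ℝ) h1
    push_cast at h3
    simp only [w, F]
    push_cast
    exact h3
  -- bound
  set B : ℝ := ∑ p ∈ S'.subtype Nat.Prime, |∑ d ∈ n.divisors, w d * F d p| with hB
  set D : ℝ := ∑ d ∈ n.divisors, |w d| * C d with hD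
  have hφ : ∑ d ∈ n.divisors, w d = n.totient := by
    have := congrArg (Int.cast : ℤ → ℝ) (sum_moebius_div n hn0)
    push_cast at this
    simp only [w]
    push_cast
    exact this
  have hkey : ∀ s : ℝ, 1 < s → s ≤ 2 → (n.totient : ℝ) * Real.log (1 / (s - 1)) ≤ B + D := by
    intro s hs1 hs2
    have hsum : ∀ d, Summable (fun p : Nat.Primes => F d p * ((p : ℕ) : ℝ) ^ (-s)) :=
      fun d => (hC d s hs1 hs2).1
    have h1 : ∑ d ∈ n.divisors, w d * ∑' p : Nat.Primes, F d p * ((p : ℕ) : ℝ) ^ (-s) =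
        ∑' p : Nat.Primes, (∑ d ∈ n.divisors, w d * F d p) * ((p : ℕ) : ℝ) ^ (-s) := by
      simp_rw [← tsum_mul_left]
      rw [← Summable.tsum_finsetSum (fun d _ => (hsum d).mul_left (w d))]
      refine tsum_congr fun p => ?_
      rw [Finset.sum_mul]
      exact Finset.sum_congr rfl fun d _ => by ring
    have h2 : ∑' p : Nat.Primes, (∑ d ∈ n.divisors, w d * F d p) * ((p : ℕ) : ℝ) ^ (-s) ≤ B := by
      set T : Finset Nat.Primes := S'.subtype Nat.Prime with hT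
      rw [tsum_eq_sum (s := T)]
      · refine Finset.sum_le_sum fun p hp => ?_
        have hp1 : ((p : ℕ) : ℝ) ^ (-s) ≤ 1 :=
          Real.rpow_le_one_of_one_le_of_nonpos (by exact_mod_cast p.2.one_le) (by linarith)
        have hp0 : 0 ≤ ((p : ℕ) : ℝ) ^ (-s) := by positivity
        calc _ ≤ |∑ d ∈ n.divisors, w d * F d p| * ((p : ℕ) : ℝ) ^ (-s) :=
              mul_le_mul_of_nonneg_right (le_abs_self _) hp0
          _ ≤ |∑ d ∈ n.divisors, w d * F d p| * 1 :=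
              mul_le_mul_of_nonneg_left hp1 (abs_nonneg _)
          _ = _ := mul_one _
      · intro p hp
        rw [hvan p (fun h => hp (Finset.mem_subtype.mpr h)), zero_mul]
    have h3 : (n.totient : ℝ) * Real.log (1 / (s - 1)) -
        ∑ d ∈ n.divisors, w d * ∑' p : Nat.Primes, F d p * ((p : ℕ) : ℝ) ^ (-s) ≤ D := by
      rw [← hφ, Finset.sum_mul, ← Finset.sum_sub_distrib]
      refine Finset.sum_le_sum fun d _ => ?_
      rw [← mul_sub]
      calc _ ≤ |w d * (Real.log (1 / (s - 1)) - ∑' p : Nat.Primes, F d p * ((p : ℕ) : ℝ) ^ (-s))| :=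
            le_abs_self _
        _ = |w d| * |∑' p : Nat.Primes, F d p * ((p : ℕ) : ℝ) ^ (-s) - Real.log (1 / (s - 1))| := by
            rw [abs_mul, abs_sub_comm]
        _ ≤ |w d| * C d := mul_le_mul_of_nonneg_left (hC d s hs1 hs2).2 (abs_nonneg _)
    linarith [h1 ▸ h2]
  -- contradiction
  have hφ1 : (1 : ℝ) ≤ n.totient := by
    exact_mod_cast Nat.totient_pos.mpr (Nat.pos_of_ne_zero hn0)
  set M : ℝ := max (B + D + 1) 0 with hM
  have hs := hkey (1 + Real.exp (-M)) (by linarith [Real.exp_pos (-M)]) (by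
    have : Real.exp (-M) ≤ 1 := Real.exp_le_one_iff.mpr (by
      have : 0 ≤ M := le_max_right _ _
      linarith)
    linarith)
  have hlog : Real.log (1 / (1 + Real.exp (-M) - 1)) = M := by
    rw [add_sub_cancel_left, one_div, ← Real.exp_neg, neg_neg, Real.log_exp]
  rw [hlog] at hs
  have hM1 : B + D + 1 ≤ M := le_max_left _ _
  have hM0 : 0 ≤ M := le_max_right _ _
  nlinarith

end

end Fermat.Agent.FrobDensity
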