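import Fermat.Agent.FrobDensity.Density
import Fermat.Agent.FrobDensity.Analytic

/-!
Frobenius density theorem (existence form) for Galois number fields.
-/

set_option autoImplicit false

open NumberField Ideal MulAction
open scoped Pointwise

namespace Fermat.Agent.FrobDensity

theorem analyticInput (K : Type*) [Field K] [NumberField K] : AnalyticInput K :=
  exists_bound_log K

/-- **Frobenius density theorem**, existence form: every cyclic subgroup of the Galois group is the
decomposition group of some prime which is unramified over `ℚ` and lies above a rational prime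
outside any given finite set. -/
theorem exists_prime_stabilizer_eq (L : Type*) [Field L] [NumberField L] [IsGalois ℚ L]
    (g : L ≃ₐ[ℚ] L) (S : Finset ℕ) :
    ∃ p : ℕ, p.Prime ∧ p ∉ S ∧ ∃ Q : Ideal (𝓞 L), Q.IsPrime ∧ (p : 𝓞 L) ∈ Q ∧
      inertia (L ≃ₐ[ℚ] L) Q = ⊥ ∧ stabilizer (L ≃ₐ[ℚ] L) Q = Subgroup.zpowers g :=
  exists_prime_stabilizer_eq_of L (fun H => analyticInput (fixedF H)) g S

end Fermat.Agent.FrobDensity
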