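import Fermat.Agent.FrobDensity.Splitting

/-!
Moebius inversion over the subgroups of a cyclic group and the weighted count of primes.
-/

set_option autoImplicit false
set_option linter.style.haveILetI false
set_option linter.unusedSectionVars false

open NumberField Ideal MulAction ArithmeticFunction
open scoped Pointwise ArithmeticFunction.Moebius

namespace Fermat.Agent.FrobDensity

section Cyclic

variable {G : Type*} [Group G] [Finite G] (g : G)

theorem le_zpowers_pow_iff {S : Subgroup G} (hS : S ≤ Subgroup.zpowers g) {d : ℕ}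
    (hd : d ∣ orderOf g) : S ≤ Subgroup.zpowers (g ^ d) ↔ d ∣ orderOf g / Nat.card S := by
  have hn : 0 < orderOf g := orderOf_pos g
  have hd0 : 0 < d := Nat.pos_of_dvd_of_pos hd hn
  have hS0 : 0 < Nat.card S := Nat.card_pos
  have hSn : Nat.card S ∣ orderOf g := by
    rw [← Nat.card_zpowers]
    exact Subgroup.card_dvd_of_le hS
  obtain ⟨e, he⟩ := hd
  obtain ⟨m, hm⟩ := hSn
  have hcard : Nat.card (Subgroup.zpowers (g ^ d)) = e := by
    rw [Nat.card_zpowers, orderOf_pow, he, Nat.gcd_eq_right (Dvd.intro _ rfl),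
      Nat.mul_div_cancel_left _ hd0]
  have hquot : orderOf g / Nat.card S = m := by
    rw [hm, Nat.mul_div_cancel_left _ hS0]
  rw [hquot]
  constructor
  · intro h
    obtain ⟨c, hc⟩ := Subgroup.card_dvd_of_le h
    rw [hcard] at hc
    refine ⟨c, ?_⟩
    have : Nat.card S * m = Nat.card S * (d * c) := by
      rw [← hm, he, hc]; ring
    exact Nat.eq_of_mul_eq_mul_left hS0 this
  · rintro ⟨c, hc⟩ s hs
    obtain ⟨k, rfl⟩ := hS hs
    have h1 : (g ^ k) ^ Nat.card S = 1 := by
      exact congrArg Subtype.val (pow_card_eq_one' (G := S) (x := ⟨g ^ k, hs⟩))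
    have h2 : (orderOf g : ℤ) ∣ k * Nat.card S := by
      rw [orderOf_dvd_iff_zpow_eq_one, zpow_mul]
      exact_mod_cast h1
    have h3 : (d : ℤ) ∣ k := by
      rw [hm, hc] at h2
      have h4 : ((Nat.card S : ℤ)) * (d * c) ∣ (Nat.card S : ℤ) * k := by
        have : ((Nat.card S * (d * c) : ℕ) : ℤ) ∣ k * Nat.card S := h2
        push_cast at this
        rwa [mul_comm k] at this
      have h5 : (d * c : ℤ) ∣ k := Int.dvd_of_mul_dvd_mul_left (by exact_mod_cast hS0.ne') h4
      exact dvd_trans (Dvd.intro _ rfl) h5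
    obtain ⟨j, rfl⟩ := h3
    refine ⟨j, ?_⟩
    show (g ^ d) ^ j = g ^ ((d : ℤ) * j)
    rw [zpow_mul, zpow_natCast]

open Classical in
theorem sum_moebius_le_zpowers (S : Subgroup G) :
    ∑ d ∈ (orderOf g).divisors, μ d * (if S ≤ Subgroup.zpowers (g ^ d) then 1 else 0 : ℤ) =
      if S = Subgroup.zpowers g then 1 else 0 := by
  have hn : 0 < orderOf g := orderOf_pos g
  by_cases hS : S ≤ Subgroup.zpowers g
  · have hS0 : 0 < Nat.card S := Nat.card_pos
    have hSn : Nat.card S ∣ orderOf g := by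
      rw [← Nat.card_zpowers]
      exact Subgroup.card_dvd_of_le hS
    obtain ⟨m, hm⟩ := hSn
    have hquot : orderOf g / Nat.card S = m := by
      rw [hm, Nat.mul_div_cancel_left _ hS0]
    have hm0 : 0 < m := by
      rcases Nat.eq_zero_or_pos m with h | h
      · rw [h, mul_zero] at hm
        omega
      · exact h
    have h1 : ∑ d ∈ (orderOf g).divisors, μ d * (if S ≤ Subgroup.zpowers (g ^ d) then 1 else 0 : ℤ)
        = ∑ d ∈ m.divisors, μ d := by
      have hsub : m.divisors ⊆ (orderOf g).divisors :=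
        Nat.divisors_subset_of_dvd hn.ne' (Dvd.intro_left _ hm.symm)
      rw [← Finset.sum_subset hsub]
      · refine Finset.sum_congr rfl fun d hd => ?_
        rw [if_pos, mul_one]
        rw [le_zpowers_pow_iff g hS (Nat.dvd_of_mem_divisors (hsub hd)), hquot]
        exact Nat.dvd_of_mem_divisors hd
      · intro d hd hdm
        rw [if_neg, mul_zero]
        rw [le_zpowers_pow_iff g hS (Nat.dvd_of_mem_divisors hd), hquot]
        intro h
        exact hdm (Nat.mem_divisors.mpr ⟨h, hm0.ne'⟩)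
    rw [h1, ← coe_mul_zeta_apply, moebius_mul_coe_zeta, one_apply]
    have : m = 1 ↔ S = Subgroup.zpowers g := by
      constructor
      · rintro rfl
        refine Subgroup.eq_of_le_of_card_ge hS ?_
        rw [Nat.card_zpowers, hm, mul_one]
      · rintro rfl
        rw [Nat.card_zpowers] at hm
        exact (Nat.eq_of_mul_eq_mul_left hn (by rw [mul_one]; exact hm)).symm
    simp only [this]
  · rw [if_neg (fun h => hS h.le)]
    refine Finset.sum_eq_zero fun d _ => ?_
    rw [if_neg, mul_zero]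
    intro h
    refine hS (h.trans ?_)
    rw [Subgroup.zpowers_le]
    exact Subgroup.pow_mem _ (Subgroup.mem_zpowers g) d

end Cyclic

section

variable {L : Type*} [Field L] [NumberField L] [IsGalois ℚ L]

/-- The main identity at an unramified prime. -/
theorem sum_moebius_numDegOne {p : ℕ} (hp : p.Prime) (g : L ≃ₐ[ℚ] L) (Q₀ : Ideal (𝓞 L))
    [hQ₀ : Q₀.IsPrime] (hpQ₀ : (p : 𝓞 L) ∈ Q₀)
    (hin : ∀ Q : Ideal (𝓞 L), Q.IsPrime → (p : 𝓞 L) ∈ Q → inertia (L ≃ₐ[ℚ] L) Q = ⊥) :
    ∑ d ∈ (orderOf g).divisors, μ d * ((orderOf g / d : ℕ) : ℤ) *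
        (numDegOne (fixedF (Subgroup.zpowers (g ^ d))) p : ℤ) =
      Nat.card {x : L ≃ₐ[ℚ] L // stabilizer (L ≃ₐ[ℚ] L) (x • Q₀) = Subgroup.zpowers g} := by
  classical
  have hn : 0 < orderOf g := orderOf_pos g
  have h1 : ∀ d ∈ (orderOf g).divisors, μ d * ((orderOf g / d : ℕ) : ℤ) *
        (numDegOne (fixedF (Subgroup.zpowers (g ^ d))) p : ℤ) =
      ∑ x : L ≃ₐ[ℚ] L, μ d *
        (if stabilizer (L ≃ₐ[ℚ] L) (x • Q₀) ≤ Subgroup.zpowers (g ^ d) then 1 else 0 : ℤ) := by
    intro d hd
    have hdvd := Nat.dvd_of_mem_divisors hd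
    have h2 := card_mul_numDegOne (Subgroup.zpowers (g ^ d)) hp Q₀ hpQ₀ hin
    have h3 : Nat.card (Subgroup.zpowers (g ^ d)) = orderOf g / d := by
      rw [Nat.card_zpowers, orderOf_pow, Nat.gcd_eq_right hdvd]
    rw [h3] at h2
    rw [mul_assoc, ← Finset.mul_sum, ← Nat.cast_mul, ← h2]
    congr 1
    rw [Finset.sum_boole, Nat.card_eq_fintype_card, Fintype.card_subtype]
  rw [Finset.sum_congr rfl h1, Finset.sum_comm]
  rw [Finset.sum_congr rfl fun x _ => sum_moebius_le_zpowers g (stabilizer (L ≃ₐ[ℚ] L) (x • Q₀))]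
  rw [Finset.sum_boole, Nat.card_eq_fintype_card, Fintype.card_subtype]

end

end Fermat.Agent.FrobDensity
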