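import Fermat.Agent.FrobDensity.Main
import Fermat.Agent.Frob.Exists
import Fermat.Agent.Frob.QbarInst

/-!
Frobenius density theorem for the Galois group of a (possibly infinite) Galois extension `Ω/ℚ`,
in the language of valuation subrings of `Ω` (in particular `Ω = AlgebraicClosure ℚ`).
-/

set_option autoImplicit false
set_option linter.style.haveILetI false
set_option linter.unusedSectionVars false

open NumberField Ideal MulAction
open scoped Pointwise

namespace Fermat.Agent.FrobDensity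

open Fermat.Agent.Frob

section

variable {Ω : Type*} [Field Ω] [Algebra ℚ Ω]
variable (L : Type*) [Field L] [NumberField L] [Algebra L Ω] [IsScalarTower ℚ L Ω]

/-- Inclusion of the ring of integers of `L` into the ring of all algebraic integers. -/
noncomputable def inclInt : 𝓞 L →+* integralClosure ℤ Ω where
  toFun x := ⟨algebraMap L Ω x,
    (RingOfIntegers.isIntegral_coe x).map ((algebraMap L Ω).toIntAlgHom)⟩
  map_zero' := Subtype.ext (by simp)
  map_one' := Subtype.ext (by simp)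
  map_add' _ _ := Subtype.ext (by simp)
  map_mul' _ _ := Subtype.ext (by simp)

@[simp] theorem coe_inclInt (x : 𝓞 L) :
    ((inclInt L x : integralClosure ℤ Ω) : Ω) = algebraMap L Ω x :=
  rfl

/-- The centre of a valuation subring on the ring of integers of `L`. -/
noncomputable def centerInt (A : ValuationSubring Ω) : Ideal (𝓞 L) := (center A).comap (inclInt L)

instance (A : ValuationSubring Ω) : (centerInt L A).IsPrime := Ideal.comap_isPrime _ _

theorem mem_centerInt_iff (A : ValuationSubring Ω) (x : 𝓞 L) :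
    x ∈ centerInt L A ↔ inclInt L x ∈ center A := Iff.rfl

theorem natCast_mem_centerInt_iff (A : ValuationSubring Ω) (q : ℕ) :
    (q : 𝓞 L) ∈ centerInt L A ↔ A.LiesOverPrime q := by
  rw [mem_centerInt_iff, map_natCast, natCast_mem_center_iff]

variable [IsGalois ℚ L]

theorem inclInt_smul (σ : Ω ≃ₐ[ℚ] Ω) (x : 𝓞 L) :
    (inclInt L (σ.restrictNormal L • x) : integralClosure ℤ Ω) = σ • inclInt L x := by
  apply Subtype.ext
  rw [integralClosure.coe_smul]
  exact σ.restrictNormal_commutes L (x : L)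

theorem centerInt_smul (σ : Ω ≃ₐ[ℚ] Ω) (A : ValuationSubring Ω) :
    centerInt L (σ • A) = σ.restrictNormal L • centerInt L A := by
  ext x
  rw [Ideal.mem_pointwise_smul_iff_inv_smul_mem, mem_centerInt_iff, mem_centerInt_iff,
    center_smul, Ideal.mem_pointwise_smul_iff_inv_smul_mem]
  have : (σ.restrictNormal L)⁻¹ = (σ⁻¹ : Ω ≃ₐ[ℚ] Ω).restrictNormal L :=
    (map_inv (AlgEquiv.restrictNormalHom (F := ℚ) (K₁ := Ω) L) σ).symm
  rw [this, inclInt_smul]

theorem restrictNormal_mem_stabilizer {A : ValuationSubring Ω} {σ : Ω ≃ₐ[ℚ] Ω}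
    (hσ : σ ∈ A.decompositionSubgroup ℚ) :
    σ.restrictNormal L ∈ stabilizer (L ≃ₐ[ℚ] L) (centerInt L A) := by
  rw [mem_stabilizer_iff, ← centerInt_smul]
  exact congrArg (centerInt L) hσ

/-- A Frobenius element acts on the ring of integers of `L` modulo the centre by `x ↦ x ^ p`. -/
theorem frobenius_smul_sub_mem {A : ValuationSubring Ω} {σ : Ω ≃ₐ[ℚ] Ω} {p : ℕ}
    (hσ : A.IsFrobeniusAt σ p) (x : 𝓞 L) :
    σ.restrictNormal L • x - x ^ p ∈ centerInt L A := by
  rw [mem_centerInt_iff, map_sub, inclInt_smul, map_pow]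
  have h := hσ.smul_residue_eq (IsLocalRing.residue A (toVal A (inclInt L x)))
  rw [← IsLocalRing.ResidueField.residue_smul, smul_toVal, ← map_pow, ← map_pow,
    ← sub_eq_zero, ← map_sub, ← map_sub, IsLocalRing.residue_eq_zero_iff] at h
  exact h

/-- Elements of the inertia group act trivially modulo the centre. -/
theorem inertia_smul_sub_mem {A : ValuationSubring Ω} {σ : Ω ≃ₐ[ℚ] Ω}
    (hσ : σ ∈ A.inertiaSubgroupIn ℚ) (x : 𝓞 L) :
    σ.restrictNormal L • x - x ∈ centerInt L A := by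
  obtain ⟨⟨σ, hσD⟩, hσI, rfl⟩ := hσ
  rw [mem_centerInt_iff, map_sub, inclInt_smul]
  have h : (⟨σ, hσD⟩ : A.decompositionSubgroup ℚ) •
      (IsLocalRing.residue A (toVal A (inclInt L x))) =
      IsLocalRing.residue A (toVal A (inclInt L x)) := by
    have := MonoidHom.mem_ker.mp (SetLike.mem_coe.mp hσI)
    exact DFunLike.congr_fun this _
  rw [← IsLocalRing.ResidueField.residue_smul, smul_toVal,
    ← sub_eq_zero, ← map_sub, ← map_sub, IsLocalRing.residue_eq_zero_iff] at h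
  exact h

omit [IsGalois ℚ L] in
/-- Every element of a decomposition group acts on the residue field as a power of Frobenius. -/
theorem exists_mk_smul_eq {p : ℕ} (hp : p.Prime) (Q : Ideal (𝓞 L)) [hQ : Q.IsPrime]
    (hpQ : (p : 𝓞 L) ∈ Q) (g : L ≃ₐ[ℚ] L) (hg : g ∈ stabilizer (L ≃ₐ[ℚ] L) Q) :
    ∃ j : ℕ, ∀ x : 𝓞 L, Ideal.Quotient.mk Q (g • x) = (Ideal.Quotient.mk Q x) ^ p ^ j := by
  haveI : Fact p.Prime := ⟨hp⟩
  have hQbot : Q ≠ ⊥ := by
    rintro h
    rw [h, Ideal.mem_bot] at hpQ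
    exact hp.ne_zero (by exact_mod_cast hpQ)
  have hmax : Q.IsMaximal := Ideal.IsPrime.isMaximal inferInstance hQbot
  letI : Field (𝓞 L ⧸ Q) := Ideal.Quotient.field Q
  haveI : Finite (𝓞 L ⧸ Q) := Ideal.finiteQuotientOfFreeOfNeBot Q hQbot
  haveI : CharP (𝓞 L ⧸ Q) p := by
    rw [CharP.charP_iff_prime_eq_zero hp]
    rw [← map_natCast (Ideal.Quotient.mk Q), Ideal.Quotient.eq_zero_iff_mem]
    exact hpQ
  letI : Algebra (ZMod p) (𝓞 L ⧸ Q) := ZMod.algebra _ p
  have hle : Q ≤ Q.comap (MulSemiringAction.toRingHom (L ≃ₐ[ℚ] L) (𝓞 L) g) := by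
    intro x hx
    rw [Ideal.mem_comap]
    have : g • x ∈ g • Q := Ideal.smul_mem_pointwise_smul g x Q hx
    rwa [mem_stabilizer_iff.mp hg] at this
  let f : (𝓞 L ⧸ Q) →+* (𝓞 L ⧸ Q) :=
    Ideal.quotientMap Q (MulSemiringAction.toRingHom (L ≃ₐ[ℚ] L) (𝓞 L) g) hle
  let f' : (𝓞 L ⧸ Q) →ₐ[ZMod p] (𝓞 L ⧸ Q) :=
    { f with
      commutes' := fun r => by
        have h : f.comp (algebraMap (ZMod p) (𝓞 L ⧸ Q)) = algebraMap (ZMod p) (𝓞 L ⧸ Q) :=
          Subsingleton.elim _ _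
        exact DFunLike.congr_fun h r }
  obtain ⟨n, hn⟩ := (FiniteField.bijective_frobeniusAlgHom_pow (ZMod p) (𝓞 L ⧸ Q)).2 f'
  refine ⟨n, fun x => ?_⟩
  have h1 := DFunLike.congr_fun hn (Ideal.Quotient.mk Q x)
  have h2 : f' (Ideal.Quotient.mk Q x) = Ideal.Quotient.mk Q (g • x) := rfl
  rw [← h2, ← h1]
  have h3 : ∀ m : ℕ, ∀ y : 𝓞 L ⧸ Q, (FiniteField.frobeniusAlgHom (ZMod p) (𝓞 L ⧸ Q) ^ m) y =
      y ^ p ^ m := by
    intro m
    induction m with
    | zero => intro y; simp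
    | succ m ih =>
      intro y
      rw [pow_succ, AlgHom.mul_apply, ih, FiniteField.coe_frobeniusAlgHom, ZMod.card]
      show (y ^ p) ^ p ^ m = _
      rw [← pow_mul, pow_succ, mul_comm]
  exact h3 n _

theorem eq_restrictNormal_pow {A : ValuationSubring Ω} {τ : Ω ≃ₐ[ℚ] Ω} {p : ℕ} (hp : p.Prime)
    (hA : A.LiesOverPrime p) (hτ : A.IsFrobeniusAt τ p)
    (hin : inertia (L ≃ₐ[ℚ] L) (centerInt L A) = ⊥)
    (g : L ≃ₐ[ℚ] L) (hg : g ∈ stabilizer (L ≃ₐ[ℚ] L) (centerInt L A)) :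
    ∃ j : ℕ, g = (τ.restrictNormal L) ^ j := by
  obtain ⟨j, hj⟩ := exists_mk_smul_eq L hp (centerInt L A)
    ((natCast_mem_centerInt_iff L A p).mpr hA) g hg
  set t := τ.restrictNormal L with ht
  have htm : ∀ y : 𝓞 L, Ideal.Quotient.mk (centerInt L A) (t • y) =
      (Ideal.Quotient.mk (centerInt L A) y) ^ p := by
    intro y
    rw [← map_pow, Ideal.Quotient.eq]
    exact frobenius_smul_sub_mem L hτ y
  have hpow : ∀ m : ℕ, ∀ y : 𝓞 L, Ideal.Quotient.mk (centerInt L A) (t ^ m • y) =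
      (Ideal.Quotient.mk (centerInt L A) y) ^ p ^ m := by
    intro m
    induction m with
    | zero => intro y; simp
    | succ m ih =>
      intro y
      rw [pow_succ', mul_smul, htm, ih, ← pow_mul, pow_succ]
  refine ⟨j, ?_⟩
  have h1 : (t ^ j)⁻¹ * g ∈ inertia (L ≃ₐ[ℚ] L) (centerInt L A) := by
    intro x
    have h2 : g • x - t ^ j • x ∈ centerInt L A := by
      rw [← Ideal.Quotient.eq, hj, hpow]
    have h3 : (t ^ j)⁻¹ • (g • x - t ^ j • x) ∈ (t ^ j)⁻¹ • centerInt L A :=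
      Ideal.smul_mem_pointwise_smul _ _ _ h2
    have h4 : (t ^ j)⁻¹ • centerInt L A = centerInt L A := by
      have ht' : t ∈ stabilizer (L ≃ₐ[ℚ] L) (centerInt L A) :=
        restrictNormal_mem_stabilizer L hτ.mem_decompositionSubgroup
      exact (stabilizer (L ≃ₐ[ℚ] L) (centerInt L A)).inv_mem (Subgroup.pow_mem _ ht' j)
    rw [h4, smul_sub, inv_smul_smul, ← mul_smul] at h3
    exact h3
  rw [hin, Subgroup.mem_bot] at h1
  exact (inv_mul_eq_one.mp h1).symm

/-- **Frobenius density theorem** for the Galois group of `Ω/ℚ`. -/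
theorem exists_frobenius_restrictNormal [IsGalois ℚ Ω] (g : L ≃ₐ[ℚ] L) (S : Finset ℕ) :
    ∃ p : ℕ, p.Prime ∧ p ∉ S ∧ ∃ A : ValuationSubring Ω, A.LiesOverPrime p ∧
      (∀ i ∈ A.inertiaSubgroupIn ℚ, i.restrictNormal L = 1) ∧
      ∃ τ : Ω ≃ₐ[ℚ] Ω, A.IsFrobeniusAt τ p ∧
      (∃ j : ℕ, g = (τ.restrictNormal L) ^ j) ∧ ∃ k : ℕ, τ.restrictNormal L = g ^ k := by
  obtain ⟨p, hp, hpS, Q, hQ, hpQ, hin, hst⟩ := exists_prime_stabilizer_eq L g S
  haveI : CharZero Ω := charZero_of_injective_algebraMap (algebraMap ℚ Ω).injective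
  obtain ⟨A₀, hA₀⟩ := exists_liesOverPrime Ω hp
  have hQ₀ := (natCast_mem_centerInt_iff L A₀ p).mpr hA₀
  have h1 : (centerInt L A₀).under ℤ = Q.under ℤ := by
    rw [← (liesOver_span_of_mem hp (centerInt L A₀) hQ₀).over,
      ← (liesOver_span_of_mem hp Q hpQ).over]
  obtain ⟨x, rfl⟩ := Algebra.IsInvariant.exists_smul_of_under_eq ℤ (𝓞 L) (L ≃ₐ[ℚ] L)
    (centerInt L A₀) Q h1
  obtain ⟨y, rfl⟩ := AlgEquiv.restrictNormalHom_surjective (F := ℚ) (K₁ := L) Ω x
  have hcen : centerInt L (y • A₀) = y.restrictNormal L • centerInt L A₀ := centerInt_smul L y A₀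
  have hyx : AlgEquiv.restrictNormalHom (F := ℚ) (K₁ := Ω) L y = y.restrictNormal L := rfl
  rw [hyx] at hst hin hQ hpQ h1
  rw [← hcen] at hst hin hQ hpQ h1
  have hA : (y • A₀).LiesOverPrime p := (natCast_mem_centerInt_iff L _ p).mp hpQ
  obtain ⟨τ, hτ⟩ := exists_isFrobeniusAt hp hA
  refine ⟨p, hp, hpS, y • A₀, hA, ?_, τ, hτ, ?_, ?_⟩
  · intro i hi
    have : i.restrictNormal L ∈ inertia (L ≃ₐ[ℚ] L) (centerInt L (y • A₀)) :=
      fun x => inertia_smul_sub_mem L hi x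
    rw [hin] at this
    exact Subgroup.mem_bot.mp this
  · refine eq_restrictNormal_pow L hp hA hτ hin g ?_
    rw [hst]
    exact Subgroup.mem_zpowers g
  · have h2 := restrictNormal_mem_stabilizer L hτ.mem_decompositionSubgroup
    rw [hst] at h2
    obtain ⟨k, hk⟩ := (Submonoid.mem_powers_iff _ _).mp ((mem_powers_iff_mem_zpowers).mpr h2)
    exact ⟨k, hk.symm⟩

end

end Fermat.Agent.FrobDensity
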