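import Fermat.Agent.FrobDensity.Final
import Fermat.Prelude.Def_GaloisRep_Adic
import Mathlib.LinearAlgebra.Charpoly.ToMatrix
import Mathlib.LinearAlgebra.Matrix.Charpoly.Coeff
import Mathlib.RingTheory.Filtration

/-!
Galois representations with the same characteristic polynomials at Frobenius elements have the same
characteristic polynomials everywhere.
-/

set_option autoImplicit false
set_option linter.style.haveILetI false
set_option linter.unusedSectionVars false

open scoped TensorProduct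
open Polynomial

namespace Fermat.Agent.FrobDensity

section Linear

variable {A : Type*} [CommRing A] {V : Type*} [AddCommGroup V] [Module A V]

theorem baseChange_quotient_eq (I : Ideal A) (f g : Module.End A V)
    (h : ∀ v, f v - g v ∈ I • (⊤ : Submodule A V)) :
    f.baseChange (A ⧸ I) = g.baseChange (A ⧸ I) := by
  refine LinearMap.ext fun w => ?_
  induction w using TensorProduct.induction_on with
  | zero => rw [map_zero, map_zero]
  | tmul c v =>
    rw [LinearMap.baseChange_tmul, LinearMap.baseChange_tmul, ← sub_eq_zero,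
      ← TensorProduct.tmul_sub]
    refine Submodule.smul_induction_on (p := fun x => c ⊗ₜ[A] x = (0 : (A ⧸ I) ⊗[A] V))
      (h v) ?_ ?_
    · intro a ha w _
      rw [TensorProduct.tmul_smul, TensorProduct.smul_tmul', Algebra.smul_def,
        Ideal.Quotient.algebraMap_eq, Ideal.Quotient.eq_zero_iff_mem.mpr ha, zero_mul,
        TensorProduct.zero_tmul]
    · intro x y hx hy
      rw [TensorProduct.tmul_add, hx, hy, add_zero]
  | add x y hx hy => rw [map_add, map_add, hx, hy]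

variable [Module.Free A V] [Module.Finite A V]

theorem charpoly_map_eq (I : Ideal A) (f g : Module.End A V)
    (h : ∀ v, f v - g v ∈ I • (⊤ : Submodule A V)) :
    (LinearMap.charpoly f).map (Ideal.Quotient.mk I) =
      (LinearMap.charpoly g).map (Ideal.Quotient.mk I) := by
  have h1 := LinearMap.charpoly_baseChange f (A ⧸ I)
  have h2 := LinearMap.charpoly_baseChange g (A ⧸ I)
  rw [baseChange_quotient_eq I f g h] at h1
  exact h1.symm.trans h2

theorem charpoly_eq_of_finrank [Nontrivial A] (hV : Module.finrank A V = 2) (f : Module.End A V) :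
    LinearMap.charpoly f = X ^ 2 - C (LinearMap.trace A V f) * X + C (LinearMap.det f) := by
  let b := Module.Free.chooseBasis A V
  have hcard : Fintype.card (Module.Free.ChooseBasisIndex A V) = 2 := by
    rw [← Module.finrank_eq_card_chooseBasisIndex, hV]
  classical
  rw [← LinearMap.charpoly_toMatrix f b, Matrix.charpoly_of_card_eq_two _ hcard,
    LinearMap.trace_eq_matrix_trace A b, ← LinearMap.det_toMatrix b]

theorem eq_of_charpoly_eq {t d t' d' : A}
    (h : (X ^ 2 - C t * X + C d : A[X]) = X ^ 2 - C t' * X + C d') : t = t' ∧ d = d' := by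
  have h0 := congrArg (fun p : A[X] => p.coeff 0) h
  have h1 := congrArg (fun p : A[X] => p.coeff 1) h
  simp [coeff_X, coeff_C] at h0 h1
  exact ⟨h1, h0⟩

theorem charpoly_pow_congr [Nontrivial A] (hV : Module.finrank A V = 2) {W : Type*}
    [AddCommGroup W] [Module A W] [Module.Free A W] [Module.Finite A W]
    (hW : Module.finrank A W = 2) (f : Module.End A V) (g : Module.End A W)
    (h : LinearMap.charpoly f = LinearMap.charpoly g) (j : ℕ) :
    LinearMap.charpoly (f ^ j) = LinearMap.charpoly (g ^ j) := by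
  have h' := h
  rw [charpoly_eq_of_finrank hV f, charpoly_eq_of_finrank hW g] at h'
  obtain ⟨ht, hd⟩ := eq_of_charpoly_eq h'
  have hf : ∀ n : ℕ, LinearMap.trace A V (f ^ (n + 2)) =
      LinearMap.trace A V f * LinearMap.trace A V (f ^ (n + 1)) -
        LinearMap.det f * LinearMap.trace A V (f ^ n) := by
    intro n
    have h1 := LinearMap.aeval_self_charpoly f
    rw [charpoly_eq_of_finrank hV f] at h1
    simp only [map_add, map_sub, map_mul, map_pow, aeval_X, aeval_C] at h1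
    have h2 : f ^ (n + 2) = LinearMap.trace A V f • f ^ (n + 1) - LinearMap.det f • f ^ n := by
      have h3 := congrArg (fun x => f ^ n * x) h1
      simp only [mul_zero, mul_add, mul_sub, Algebra.algebraMap_eq_smul_one, smul_mul_assoc,
        one_mul, mul_smul_comm, mul_one] at h3
      rw [sub_add, sub_eq_zero] at h3
      rw [pow_add, pow_succ]
      exact h3
    rw [h2, map_sub, map_smul, map_smul, smul_eq_mul, smul_eq_mul]
  have hg : ∀ n : ℕ, LinearMap.trace A W (g ^ (n + 2)) =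
      LinearMap.trace A W g * LinearMap.trace A W (g ^ (n + 1)) -
        LinearMap.det g * LinearMap.trace A W (g ^ n) := by
    intro n
    have h1 := LinearMap.aeval_self_charpoly g
    rw [charpoly_eq_of_finrank hW g] at h1
    simp only [map_add, map_sub, map_mul, map_pow, aeval_X, aeval_C] at h1
    have h2 : g ^ (n + 2) = LinearMap.trace A W g • g ^ (n + 1) - LinearMap.det g • g ^ n := by
      have h3 := congrArg (fun x => g ^ n * x) h1
      simp only [mul_zero, mul_add, mul_sub, Algebra.algebraMap_eq_smul_one, smul_mul_assoc,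
        one_mul, mul_smul_comm, mul_one] at h3
      rw [sub_add, sub_eq_zero] at h3
      rw [pow_add, pow_succ]
      exact h3
    rw [h2, map_sub, map_smul, map_smul, smul_eq_mul, smul_eq_mul]
  have htr : ∀ n : ℕ, LinearMap.trace A V (f ^ n) = LinearMap.trace A W (g ^ n) ∧
      LinearMap.trace A V (f ^ (n + 1)) = LinearMap.trace A W (g ^ (n + 1)) := by
    intro n
    induction n with
    | zero =>
      refine ⟨?_, ?_⟩
      · rw [pow_zero, pow_zero, LinearMap.trace_one, LinearMap.trace_one, hV, hW]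
      · rw [zero_add, pow_one, pow_one, ht]
    | succ n ih => exact ⟨ih.2, by rw [hf, hg, ih.1, ih.2, ht, hd]⟩
  rw [charpoly_eq_of_finrank hV, charpoly_eq_of_finrank hW, (htr j).1,
    map_pow LinearMap.det f j, map_pow LinearMap.det g j, hd]

end Linear

section Rep

variable {A : Type} [CommRing A] [IsLocalRing A]

/-- Approximation of any element of the Galois group by a power of a Frobenius element, for two
representations simultaneously. -/
theorem exists_frobenius_approx (ρ₁ ρ₂ : GaloisRepAdic A) (n : ℕ) (S : Finset ℕ)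
    (σ : AlgebraicClosure ℚ ≃ₐ[ℚ] AlgebraicClosure ℚ) :
    ∃ ℓ : ℕ, ℓ.Prime ∧ ℓ ∉ S ∧ ∃ P : ValuationSubring (AlgebraicClosure ℚ), P.LiesOverPrime ℓ ∧
      ∃ τ : AlgebraicClosure ℚ ≃ₐ[ℚ] AlgebraicClosure ℚ, P.IsFrobeniusAt τ ℓ ∧ ∃ j : ℕ,
        (∀ v, ρ₁.ρ σ v - (ρ₁.ρ τ ^ j) v ∈ (IsLocalRing.maximalIdeal A ^ n) •
          (⊤ : Submodule A ρ₁.V)) ∧
        (∀ v, ρ₂.ρ σ v - (ρ₂.ρ τ ^ j) v ∈ (IsLocalRing.maximalIdeal A ^ n) •
          (⊤ : Submodule A ρ₂.V)) := by
  obtain ⟨L₁, hL₁, h₁⟩ := ρ₁.isAdicContinuous n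
  obtain ⟨L₂, hL₂, h₂⟩ := ρ₂.isAdicContinuous n
  have hfin : FiniteDimensional ℚ (L₁ ⊔ L₂ : IntermediateField ℚ (AlgebraicClosure ℚ)) :=
    IntermediateField.finiteDimensional_sup L₁ L₂
  obtain ⟨ℓ, hℓ, hℓS, P, hP, -, τ, hτ, ⟨j, hj⟩, -⟩ :=
    exists_frobenius_pow_eq (L₁ ⊔ L₂) hfin σ S
  refine ⟨ℓ, hℓ, hℓS, P, hP, τ, hτ, j, ?_, ?_⟩
  · intro v
    have hfix : ∀ x ∈ L₁, ((τ ^ j)⁻¹ * σ) x = x := by
      intro x hx
      have := hj x ((le_sup_left : L₁ ≤ L₁ ⊔ L₂) hx)
      show (τ ^ j)⁻¹ (σ x) = x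
      rw [← this]
      exact (τ ^ j).symm_apply_apply x
    have h3 := h₁ _ hfix v
    have h4 : ρ₁.ρ σ v - (ρ₁.ρ τ ^ j) v = (ρ₁.ρ τ ^ j) (ρ₁.ρ ((τ ^ j)⁻¹ * σ) v - v) := by
      rw [map_sub, ← map_pow, ← Module.End.mul_apply, ← map_mul, mul_inv_cancel_left]
    rw [h4]
    have h5 : (ρ₁.ρ τ ^ j) (ρ₁.ρ ((τ ^ j)⁻¹ * σ) v - v) ∈
        ((IsLocalRing.maximalIdeal A ^ n) • (⊤ : Submodule A ρ₁.V)).map (ρ₁.ρ τ ^ j) :=
      Submodule.mem_map_of_mem h3
    rw [Submodule.map_smul''] at h5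
    exact Submodule.smul_mono le_rfl le_top h5
  · intro v
    have hfix : ∀ x ∈ L₂, ((τ ^ j)⁻¹ * σ) x = x := by
      intro x hx
      have := hj x ((le_sup_right : L₂ ≤ L₁ ⊔ L₂) hx)
      show (τ ^ j)⁻¹ (σ x) = x
      rw [← this]
      exact (τ ^ j).symm_apply_apply x
    have h3 := h₂ _ hfix v
    have h4 : ρ₂.ρ σ v - (ρ₂.ρ τ ^ j) v = (ρ₂.ρ τ ^ j) (ρ₂.ρ ((τ ^ j)⁻¹ * σ) v - v) := by
      rw [map_sub, ← map_pow, ← Module.End.mul_apply, ← map_mul, mul_inv_cancel_left]
    rw [h4]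
    have h5 : (ρ₂.ρ τ ^ j) (ρ₂.ρ ((τ ^ j)⁻¹ * σ) v - v) ∈
        ((IsLocalRing.maximalIdeal A ^ n) • (⊤ : Submodule A ρ₂.V)).map (ρ₂.ρ τ ^ j) :=
      Submodule.mem_map_of_mem h3
    rw [Submodule.map_smul''] at h5
    exact Submodule.smul_mono le_rfl le_top h5

/-- Two adic Galois representations with the same characteristic polynomials at (all the) Frobenius
elements outside a finite set of primes have the same characteristic polynomials everywhere. -/
theorem charpoly_eq_of_frobenius [IsNoetherianRing A] (ρ₁ ρ₂ : GaloisRepAdic A) (S : Finset ℕ)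
    (h : ∀ ℓ : ℕ, ℓ.Prime → ℓ ∉ S → ∀ P : ValuationSubring (AlgebraicClosure ℚ),
      P.LiesOverPrime ℓ → ∀ τ : AlgebraicClosure ℚ ≃ₐ[ℚ] AlgebraicClosure ℚ,
        P.IsFrobeniusAt τ ℓ → LinearMap.charpoly (ρ₁.ρ τ) = LinearMap.charpoly (ρ₂.ρ τ))
    (σ : AlgebraicClosure ℚ ≃ₐ[ℚ] AlgebraicClosure ℚ) :
    LinearMap.charpoly (ρ₁.ρ σ) = LinearMap.charpoly (ρ₂.ρ σ) := by
  have hmod : ∀ n : ℕ, ∀ i : ℕ, (LinearMap.charpoly (ρ₁.ρ σ)).coeff i -
      (LinearMap.charpoly (ρ₂.ρ σ)).coeff i ∈ IsLocalRing.maximalIdeal A ^ n := by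
    intro n i
    obtain ⟨ℓ, hℓ, hℓS, P, hP, τ, hτ, j, h1, h2⟩ := exists_frobenius_approx ρ₁ ρ₂ n S σ
    have h3 := charpoly_map_eq _ _ _ h1
    have h4 := charpoly_map_eq _ _ _ h2
    rw [charpoly_pow_congr ρ₁.finrank_eq ρ₂.finrank_eq _ _ (h ℓ hℓ hℓS P hP τ hτ) j, ← h4] at h3
    have h5 := congrArg (fun p : (A ⧸ IsLocalRing.maximalIdeal A ^ n)[X] => p.coeff i) h3
    simp only [coeff_map] at h5
    exact Ideal.Quotient.eq.mp h5
  ext i
  have hbot : (⨅ n : ℕ, IsLocalRing.maximalIdeal A ^ n) = ⊥ :=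
    Ideal.iInf_pow_eq_bot_of_isLocalRing _ (Ideal.IsPrime.ne_top inferInstance)
  have h6 : (LinearMap.charpoly (ρ₁.ρ σ)).coeff i - (LinearMap.charpoly (ρ₂.ρ σ)).coeff i ∈
      (⨅ n : ℕ, IsLocalRing.maximalIdeal A ^ n) := by
    rw [Ideal.mem_iInf]
    exact fun n => hmod n i
  rw [hbot, Ideal.mem_bot, sub_eq_zero] at h6
  exact h6

end Rep

end Fermat.Agent.FrobDensity
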