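import Mathlib

/-!
Splitting of rational primes in the fixed fields of subgroups of the Galois group of a
Galois number field: the number of degree one primes above an unramified prime.
-/

set_option autoImplicit false
set_option linter.style.haveILetI false
set_option linter.unusedSectionVars false

open NumberField Ideal MulAction
open scoped Pointwise

namespace Fermat.Agent.FrobDensity

section

variable {L : Type*} [Field L] [NumberField L]

/-- The fixed field of a subgroup. -/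
noncomputable abbrev fixedF (H : Subgroup (L ≃ₐ[ℚ] L)) : IntermediateField ℚ L :=
  FixedPoints.intermediateField H

variable (H : Subgroup (L ≃ₐ[ℚ] L))

instance instIsGaloisGroupFixedF [IsGalois ℚ L] : IsGaloisGroup H (𝓞 (fixedF H)) (𝓞 L) :=
  IsGaloisGroup.of_isFractionRing H (𝓞 (fixedF H)) (𝓞 L) (fixedF H) L

theorem stabilizer_subgroup_eq (Q : Ideal (𝓞 L)) :
    stabilizer H Q = (stabilizer (L ≃ₐ[ℚ] L) Q).subgroupOf H := by
  ext h
  rfl

theorem inertia_subgroup_eq_bot (Q : Ideal (𝓞 L)) (hQ : inertia (L ≃ₐ[ℚ] L) Q = ⊥) :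
    inertia H Q = ⊥ := by
  rw [eq_bot_iff]
  intro h hh
  have : (h : L ≃ₐ[ℚ] L) ∈ inertia (L ≃ₐ[ℚ] L) Q := fun x => hh x
  rw [hQ, Subgroup.mem_bot] at this
  exact Subgroup.mem_bot.mpr (Subtype.ext this)

theorem liesOver_span_of_mem {K : Type*} [Field K] [NumberField K] {p : ℕ} (hp : p.Prime)
    (Q : Ideal (𝓞 K)) [hQ : Q.IsPrime] (hpQ : (p : 𝓞 K) ∈ Q) : Q.LiesOver (span {(p : ℤ)}) :=
  (liesOver_span_iff hQ.ne_top (Nat.prime_iff_prime_int.mp hp)).mpr (by simpa using hpQ)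

instance instPerfectFieldResidueInt (p : ℕ) [Fact p.Prime] [(span {(p : ℤ)}).IsPrime] :
    PerfectField (span {(p : ℤ)}).ResidueField := by
  have hmax : (span {(p : ℤ)}).IsMaximal := Int.ideal_span_isMaximal_of_prime p
  haveI : Finite (ℤ ⧸ span {(p : ℤ)}) := by
    have e := Int.quotientSpanNatEquivZMod p
    haveI : NeZero p := ⟨(Fact.out : p.Prime).ne_zero⟩
    exact Finite.of_equiv _ e.symm.toEquiv
  haveI : Finite (span {(p : ℤ)}).ResidueField :=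
    Finite.of_surjective _ (Ideal.bijective_algebraMap_quotient_residueField _).2
  infer_instance

theorem perfectField_residueField_of_ne_bot {K : Type*} [Field K] [NumberField K]
    (P : Ideal (𝓞 K)) [P.IsPrime] (hP : P ≠ ⊥) : PerfectField P.ResidueField := by
  have hmax : P.IsMaximal := Ideal.IsPrime.isMaximal inferInstance hP
  haveI : Finite (𝓞 K ⧸ P) := Ideal.finiteQuotientOfFreeOfNeBot P hP
  haveI : Finite P.ResidueField :=
    Finite.of_surjective _ (Ideal.bijective_algebraMap_quotient_residueField _).2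
  infer_instance

variable [IsGalois ℚ L]

/-- The decomposition group is contained in `H` iff the prime below in the fixed field of `H`
has degree one. -/
theorem absNorm_under_eq_iff {p : ℕ} (hp : p.Prime) (Q : Ideal (𝓞 L)) [hQp : Q.IsPrime]
    (hpQ : (p : 𝓞 L) ∈ Q) (hQ : inertia (L ≃ₐ[ℚ] L) Q = ⊥) :
    absNorm (Q.under (𝓞 (fixedF H))) = p ↔ stabilizer (L ≃ₐ[ℚ] L) Q ≤ H := by
  haveI : Fact p.Prime := ⟨hp⟩
  set P := Q.under (𝓞 (fixedF H)) with hP
  haveI : P.IsPrime := inferInstanceAs (Q.under _).IsPrime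
  haveI hQP : Q.LiesOver P := ⟨rfl⟩
  have hpP : (p : 𝓞 (fixedF H)) ∈ P := by
    rw [hP, Ideal.mem_comap, map_natCast]
    exact hpQ
  haveI := liesOver_span_of_mem hp Q hpQ
  haveI := liesOver_span_of_mem hp P hpP
  haveI : (span {(p : ℤ)}).IsPrime := (Int.ideal_span_isMaximal_of_prime p).isPrime
  have hPbot : P ≠ ⊥ := by
    rintro h
    rw [h, Ideal.mem_bot] at hpP
    exact hp.ne_zero (by exact_mod_cast hpP)
  haveI := perfectField_residueField_of_ne_bot P hPbot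
  have h1 := card_stabilizer_eq_card_inertia_mul_finrank (G := L ≃ₐ[ℚ] L) (span {(p : ℤ)}) Q
  have h2 := card_stabilizer_eq_card_inertia_mul_finrank (G := H) P Q
  rw [hQ] at h1
  rw [inertia_subgroup_eq_bot H Q hQ] at h2
  simp only [Nat.card_unique, one_mul] at h1 h2
  have h3 : Q.inertiaDeg ℤ = P.inertiaDeg ℤ * Q.inertiaDeg (𝓞 (fixedF H)) := inertiaDeg_tower P Q
  have h4 : p ^ P.inertiaDeg ℤ = absNorm P := pow_inertiaDeg p P
  have h5 : 0 < Q.inertiaDeg (𝓞 (fixedF H)) := inertiaDeg_pos ..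
  have h6 : absNorm P = p ↔ P.inertiaDeg ℤ = 1 := by
    rw [← h4]
    constructor
    · intro h
      exact Nat.pow_right_injective hp.two_le (by simpa using h)
    · intro h
      rw [h, pow_one]
  rw [h6]
  have h7 : Nat.card (stabilizer H Q) = Nat.card (stabilizer (L ≃ₐ[ℚ] L) Q ⊓ H : Subgroup _) := by
    rw [stabilizer_subgroup_eq, ← Subgroup.inf_subgroupOf_right]
    exact Nat.card_congr (Subgroup.subgroupOfEquivOfLe inf_le_right).toEquiv
  replace h2 := h7.symm.trans h2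
  constructor
  · intro h
    rw [h, one_mul, ← h1, ← h2] at h3
    have h8 : stabilizer (L ≃ₐ[ℚ] L) Q ⊓ H = stabilizer (L ≃ₐ[ℚ] L) Q :=
      Subgroup.eq_of_le_of_card_ge inf_le_left h3.le
    exact inf_eq_left.mp h8
  · intro h
    rw [inf_eq_left.mpr h, h1, h3] at h2
    exact Nat.eq_of_mul_eq_mul_right h5 (by rw [h2, one_mul])

/-- Number of ideals of norm `p` (for `p` prime: number of degree one primes above `p`). -/
noncomputable def numDegOne (K : Type*) [Field K] [NumberField K] (p : ℕ) : ℕ :=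
  Nat.card {I : Ideal (𝓞 K) // absNorm I = p}

theorem mem_smul_iff_of_natCast (x : L ≃ₐ[ℚ] L) (Q : Ideal (𝓞 L)) (p : ℕ) :
    (p : 𝓞 L) ∈ x • Q ↔ (p : 𝓞 L) ∈ Q := by
  rw [Ideal.mem_pointwise_smul_iff_inv_smul_mem]
  have : x⁻¹ • (p : 𝓞 L) = (p : 𝓞 L) :=
    map_natCast (MulSemiringAction.toRingHom (L ≃ₐ[ℚ] L) (𝓞 L) x⁻¹) p
  rw [this]

/-- The main counting lemma. -/
theorem card_mul_numDegOne {p : ℕ} (hp : p.Prime) (Q₀ : Ideal (𝓞 L)) [hQ₀ : Q₀.IsPrime]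
    (hpQ₀ : (p : 𝓞 L) ∈ Q₀) (hin : ∀ Q : Ideal (𝓞 L), Q.IsPrime → (p : 𝓞 L) ∈ Q →
      inertia (L ≃ₐ[ℚ] L) Q = ⊥) :
    Nat.card {x : L ≃ₐ[ℚ] L // stabilizer (L ≃ₐ[ℚ] L) (x • Q₀) ≤ H} =
      Nat.card H * numDegOne (fixedF H) p := by
  have hprime : ∀ x : L ≃ₐ[ℚ] L, (x • Q₀).IsPrime := fun x => hQ₀.smul x
  have hmem : ∀ x : L ≃ₐ[ℚ] L, (p : 𝓞 L) ∈ x • Q₀ := fun x =>
    (mem_smul_iff_of_natCast x Q₀ p).mpr hpQ₀
  let φ : {x : L ≃ₐ[ℚ] L // stabilizer (L ≃ₐ[ℚ] L) (x • Q₀) ≤ H} →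
      {I : Ideal (𝓞 (fixedF H)) // absNorm I = p} := fun x =>
    ⟨((x : L ≃ₐ[ℚ] L) • Q₀).under (𝓞 (fixedF H)), by
      haveI := hprime x
      exact (absNorm_under_eq_iff H hp _ (hmem x) (hin _ (hprime x) (hmem x))).mpr x.2⟩
  have hφ : Function.Surjective φ := by
    rintro ⟨I, hI⟩
    haveI hIp : I.IsPrime := isPrime_of_irreducible_absNorm (by rw [hI]; exact hp)
    have hpI : (p : 𝓞 (fixedF H)) ∈ I := by
      have := absNorm_mem I
      rwa [hI] at this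
    obtain ⟨⟨Q, hQ, hQI⟩⟩ := (nonempty_primesOver (S := 𝓞 L) I)
    have hpQ : (p : 𝓞 L) ∈ Q := by
      rw [hQI.over, Ideal.mem_comap, map_natCast] at hpI
      exact hpI
    have h1 : Q₀.under ℤ = Q.under ℤ := by
      rw [← (liesOver_span_of_mem hp Q₀ hpQ₀).over, ← (liesOver_span_of_mem hp Q hpQ).over]
    obtain ⟨x, rfl⟩ := Algebra.IsInvariant.exists_smul_of_under_eq ℤ (𝓞 L) (L ≃ₐ[ℚ] L) Q₀ Q h1
    refine ⟨⟨x, ?_⟩, ?_⟩
    · rw [← absNorm_under_eq_iff H hp _ hpQ (hin _ hQ hpQ), ← hQI.over, hI]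
    · exact Subtype.ext hQI.over.symm
  have hfib : ∀ I, Nonempty ({x // φ x = I} ≃ H) := by
    intro I
    obtain ⟨x₀, rfl⟩ := hφ I
    have hunder : ∀ h : H, ((h * x₀ : L ≃ₐ[ℚ] L) • Q₀).under (𝓞 (fixedF H)) =
        ((x₀ : L ≃ₐ[ℚ] L) • Q₀).under (𝓞 (fixedF H)) := by
      intro h
      rw [mul_smul]
      exact under_smul (G := H) (A := 𝓞 (fixedF H)) ((x₀ : L ≃ₐ[ℚ] L) • Q₀) h
    have hst : ∀ h : H, stabilizer (L ≃ₐ[ℚ] L) ((h * x₀ : L ≃ₐ[ℚ] L) • Q₀) ≤ H := by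
      intro h
      haveI := hprime (h * x₀)
      rw [← absNorm_under_eq_iff H hp _ (hmem _) (hin _ (hprime _) (hmem _)), hunder h]
      exact (φ x₀).2
    refine ⟨⟨fun x => ⟨(x.1 : L ≃ₐ[ℚ] L) * (x₀ : L ≃ₐ[ℚ] L)⁻¹, ?_⟩,
      fun h => ⟨⟨h * x₀, hst h⟩, Subtype.ext (hunder h)⟩, ?_, ?_⟩⟩
    · have hx : ((x₀ : L ≃ₐ[ℚ] L) • Q₀).under (𝓞 (fixedF H)) =
          ((x.1 : L ≃ₐ[ℚ] L) • Q₀).under (𝓞 (fixedF H)) := (congrArg Subtype.val x.2).symm
      haveI := hprime x₀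
      haveI := hprime x.1
      obtain ⟨h, hh⟩ := Algebra.IsInvariant.exists_smul_of_under_eq (𝓞 (fixedF H)) (𝓞 L) H _ _ hx
      have h2 : ((h : L ≃ₐ[ℚ] L)⁻¹ * (x.1 : L ≃ₐ[ℚ] L) * (x₀ : L ≃ₐ[ℚ] L)⁻¹) ∈
          stabilizer (L ≃ₐ[ℚ] L) ((x₀ : L ≃ₐ[ℚ] L) • Q₀) := by
        rw [mem_stabilizer_iff, mul_smul, mul_smul, inv_smul_smul, hh]
        exact inv_smul_smul (h : L ≃ₐ[ℚ] L) ((x₀ : L ≃ₐ[ℚ] L) • Q₀)
      have h3 := H.mul_mem h.2 (x₀.2 h2)
      rwa [← mul_assoc, ← mul_assoc, mul_inv_cancel, one_mul] at h3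
    · intro x
      ext1
      ext1
      simp
    · intro h
      ext1
      simp
  rw [numDegOne, ← Nat.card_prod]
  exact Nat.card_congr ((Equiv.sigmaFiberEquiv φ).symm.trans
    ((Equiv.sigmaCongrRight fun I => Classical.choice (hfib I)).trans
      ((Equiv.sigmaEquivProd _ _).trans (Equiv.prodComm _ _))))

end

end Fermat.Agent.FrobDensity
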